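/-
S18lib / RH / LocalDifferent (helper3): exponent of the different at a prime, in any characteristic.

For Dedekind domains `A ⊆ B` (finite, torsion-free, separable fraction fields), `p` maximal in `A`
and a factorisation `pB = I * Q` with `I`, `Q` coprime (applied with `I = P ^ e`):

* `not_dvd_differentIdeal_of_isCoprime_of_finrank_ne_zero`: if `dim_{A/p} B/I` is invertible in
  `A/p` (tame case) then `I ∤ Diff(B/A)`;
* `dvd_differentIdeal_of_isCoprime_of_trace_eq_zero`: if the trace form of `B/I` over `A/p`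
  vanishes identically then `I ∣ Diff(B/A)`;
* `trace_quotient_pow_eq_zero`: this happens for `I = P ^ e` when `B/P = A/p` and
  `dim_{A/p} B/P^e = 0` in `A/p` (wild case).
-/
import Mathlib

set_option autoImplicit false

namespace Fermat.Agent.S18lib.RH

open Module nonZeroDivisors

attribute [local instance] FractionRing.liftAlgebra FractionRing.isScalarTower_liftAlgebra
  Ideal.Quotient.field

variable (A : Type*) {B : Type*} [CommRing A] [CommRing B] [Algebra A B]
  [IsDedekindDomain A] [IsDedekindDomain B] [IsTorsionFree A B] [Module.Finite A B]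

/-- **Tame upper bound.** If `pB = I * Q` with `I`, `Q` coprime, `I ≠ ⊤` and
`dim_{A/p} (B/I)` is nonzero in the residue field `A/p`, then `I` does not divide the different.
(Applied with `I = P ^ e`, `dim = e * f`.) -/
theorem not_dvd_differentIdeal_of_isCoprime_of_finrank_ne_zero
    [Algebra.IsSeparable (FractionRing A) (FractionRing B)]
    {p : Ideal A} [p.IsMaximal] (I Q : Ideal B)
    (hIQ : IsCoprime I Q) (hP : I * Q = Ideal.map (algebraMap A B) p)
    (hdim : ∀ [Algebra (A ⧸ p) (B ⧸ I)] [IsScalarTower A (A ⧸ p) (B ⧸ I)],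
      ((Module.finrank (A ⧸ p) (B ⧸ I) : ℕ) : A ⧸ p) ≠ 0) :
    ¬ I ∣ differentIdeal A B := by
  have hIle : p ≤ I.comap (algebraMap A B) := by
    rw [← Ideal.map_le_iff_le_comap, ← hP]; exact Ideal.mul_le_left (I := I) (J := Q)
  have hQle : p ≤ Q.comap (algebraMap A B) := by
    rw [← Ideal.map_le_iff_le_comap, ← hP]; exact Ideal.mul_le_right (I := I) (J := Q)
  let _ : Algebra (A ⧸ p) (B ⧸ I) := Ideal.Quotient.algebraQuotientOfLEComap hIle
  let _ : Algebra (A ⧸ p) (B ⧸ Q) := Ideal.Quotient.algebraQuotientOfLEComap hQle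
  have : IsScalarTower A (A ⧸ p) (B ⧸ I) := .of_algebraMap_eq' rfl
  have : IsScalarTower A (A ⧸ p) (B ⧸ Q) := .of_algebraMap_eq' rfl
  have : Module.Finite (A ⧸ p) (B ⧸ I) :=
    Module.Finite.of_restrictScalars_finite A (A ⧸ p) (B ⧸ I)
  have : Module.Finite (A ⧸ p) (B ⧸ Q) :=
    Module.Finite.of_restrictScalars_finite A (A ⧸ p) (B ⧸ Q)
  let e : (B ⧸ p.map (algebraMap A B)) ≃ₐ[A ⧸ p] ((B ⧸ I) × B ⧸ Q) :=
    { __ := (Ideal.quotEquivOfEq hP.symm).trans (Ideal.quotientMulEquivQuotientProd I Q hIQ),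
      commutes' := Quotient.ind fun _ ↦ rfl }
  obtain ⟨y, hy⟩ := Ideal.Quotient.mk_surjective (e.symm (1, 0))
  refine not_dvd_differentIdeal_of_intTrace_not_mem A I Q hP y ?_ ?_
  · have := congr((e $hy).2)
    simp at this
    simpa [e, Ideal.Quotient.eq_zero_iff_mem] using this
  · rw [← Ideal.Quotient.eq_zero_iff_mem, ← Algebra.trace_quotient_eq_of_isDedekindDomain,
      hy, Algebra.trace_eq_of_algEquiv, Algebra.trace_prod_apply]
    have h1 : Algebra.trace (A ⧸ p) (B ⧸ I) 1 = (Module.finrank (A ⧸ p) (B ⧸ I) : A ⧸ p) := by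
      have := Algebra.trace_algebraMap (R := A ⧸ p) (S := B ⧸ I) (1 : A ⧸ p)
      simpa using this
    simp only [map_zero, add_zero]
    rw [h1]
    exact hdim

/-- **Wild lower bound, abstract form.** If `pB = I * Q` with `I`, `Q` coprime and the trace of
`B/I` over `A/p` vanishes identically, then `I` divides the different. -/
theorem dvd_differentIdeal_of_isCoprime_of_trace_eq_zero
    [Algebra.IsSeparable (FractionRing A) (FractionRing B)]
    {p : Ideal A} [p.IsMaximal] (hp : p ≠ ⊥) (I Q : Ideal B)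
    (hIQ : IsCoprime I Q) (hP : I * Q = Ideal.map (algebraMap A B) p)
    (htr : ∀ [Algebra (A ⧸ p) (B ⧸ I)] [IsScalarTower A (A ⧸ p) (B ⧸ I)]
      [Module.Finite (A ⧸ p) (B ⧸ I)] (y : B ⧸ I), Algebra.trace (A ⧸ p) (B ⧸ I) y = 0) :
    I ∣ differentIdeal A B := by
  let K := FractionRing A
  let L := FractionRing B
  have : IsLocalization (Algebra.algebraMapSubmonoid B A⁰) L :=
    IsIntegralClosure.isLocalization _ K _ _
  have : FiniteDimensional K L := .of_isLocalization A B A⁰
  have hp' := (Ideal.map_eq_bot_iff_of_injective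
    (FaithfulSMul.algebraMap_injective A B)).not.mpr hp
  have hIbot : I ≠ ⊥ := by
    rintro rfl; apply hp'; rw [← hP]; simp
  have hQbot : Q ≠ ⊥ := by
    rintro rfl; apply hp'; rw [← hP]; simp
  have hIle : p ≤ I.comap (algebraMap A B) := by
    rw [← Ideal.map_le_iff_le_comap, ← hP]; exact Ideal.mul_le_left (I := I) (J := Q)
  have hQle : p ≤ Q.comap (algebraMap A B) := by
    rw [← Ideal.map_le_iff_le_comap, ← hP]; exact Ideal.mul_le_right (I := I) (J := Q)
  let _ : Algebra (A ⧸ p) (B ⧸ I) := Ideal.Quotient.algebraQuotientOfLEComap hIle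
  let _ : Algebra (A ⧸ p) (B ⧸ Q) := Ideal.Quotient.algebraQuotientOfLEComap hQle
  have : IsScalarTower A (A ⧸ p) (B ⧸ I) := .of_algebraMap_eq' rfl
  have : IsScalarTower A (A ⧸ p) (B ⧸ Q) := .of_algebraMap_eq' rfl
  have : Module.Finite (A ⧸ p) (B ⧸ I) :=
    Module.Finite.of_restrictScalars_finite A (A ⧸ p) (B ⧸ I)
  have : Module.Finite (A ⧸ p) (B ⧸ Q) :=
    Module.Finite.of_restrictScalars_finite A (A ⧸ p) (B ⧸ Q)
  let e : (B ⧸ p.map (algebraMap A B)) ≃ₐ[A ⧸ p] ((B ⧸ I) × B ⧸ Q) :=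
    { __ := (Ideal.quotEquivOfEq hP.symm).trans (Ideal.quotientMulEquivQuotientProd I Q hIQ),
      commutes' := Quotient.ind fun _ ↦ rfl }
  -- the key trace computation
  have key : ∀ x ∈ Q, Algebra.intTrace A B x ∈ p := by
    intro x hx
    rw [← Ideal.Quotient.eq_zero_iff_mem, ← Algebra.trace_quotient_eq_of_isDedekindDomain,
      ← Algebra.trace_eq_of_algEquiv e, Algebra.trace_prod_apply]
    have h2 : (e (Ideal.Quotient.mk _ x)).2 = 0 := by
      simpa [e, Ideal.Quotient.eq_zero_iff_mem] using hx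
    rw [h2, map_zero, add_zero]
    exact htr _
  have hinv : ((I :)⁻¹ : FractionalIdeal B⁰ L) = Q / p.map (algebraMap A B) := by
    apply inv_involutive.injective
    show ((I : FractionalIdeal B⁰ L)⁻¹)⁻¹ = ((Q : FractionalIdeal B⁰ L) / p.map (algebraMap A B))⁻¹
    rw [inv_inv, inv_div, ← hP, FractionalIdeal.coeIdeal_mul, mul_div_assoc,
      div_self (by simpa using hQbot), mul_one]
  rw [Ideal.dvd_iff_le, differentialIdeal_le_iff (K := K) (L := L) hIbot, hinv,
    Submodule.map_le_iff_le_comap]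
  intro x hx
  rw [Submodule.restrictScalars_mem, FractionalIdeal.mem_coe,
    FractionalIdeal.mem_div_iff_of_ne_zero (by simpa using hp')] at hx
  rw [Submodule.mem_comap, LinearMap.coe_restrictScalars, ← FractionalIdeal.coe_one,
    ← div_self (G₀ := FractionalIdeal A⁰ K) (a := p) (by simpa using hp),
    FractionalIdeal.mem_coe, FractionalIdeal.mem_div_iff_of_ne_zero (by simpa using hp)]
  simp only [FractionalIdeal.mem_coeIdeal, forall_exists_index, and_imp,
    forall_apply_eq_imp_iff₂] at hx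
  intro y hy'
  obtain ⟨y, hy, rfl : algebraMap A K _ = _⟩ := (FractionalIdeal.mem_coeIdeal _).mp hy'
  obtain ⟨z, hz, hz'⟩ := hx _ (Ideal.mem_map_of_mem _ hy)
  have : Algebra.trace K L (algebraMap B L z) ∈ (p : FractionalIdeal A⁰ K) := by
    rw [← Algebra.algebraMap_intTrace (A := A)]
    exact ⟨Algebra.intTrace A B z, key z hz, rfl⟩
  rwa [mul_comm, ← smul_eq_mul, ← map_smul, Algebra.smul_def, mul_comm,
    ← IsScalarTower.algebraMap_apply, IsScalarTower.algebraMap_apply A B L, ← hz']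

omit [IsDedekindDomain A] [IsDedekindDomain B] [IsTorsionFree A B] [Module.Finite A B] in
/-- If `B/P = A/p` (every element of `B` is congruent mod `P` to an element of `A`) and the
dimension of `B/P^e` over the field `A/p` vanishes in `A/p`, then the trace of `B/P^e` over `A/p`
is identically zero: an element is a constant (trace `= dim * c = 0`) plus a nilpotent. -/
theorem trace_quotient_pow_eq_zero {p : Ideal A} [p.IsMaximal] (P : Ideal B) (e : ℕ)
    (hres : ∀ b : B, ∃ a : A, b - algebraMap A B a ∈ P)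
    [Algebra (A ⧸ p) (B ⧸ P ^ e)] [IsScalarTower A (A ⧸ p) (B ⧸ P ^ e)]
    (hdim : ((Module.finrank (A ⧸ p) (B ⧸ P ^ e) : ℕ) : A ⧸ p) = 0)
    (y : B ⧸ P ^ e) : Algebra.trace (A ⧸ p) (B ⧸ P ^ e) y = 0 := by
  obtain ⟨b, rfl⟩ := Ideal.Quotient.mk_surjective y
  obtain ⟨a, ha⟩ := hres b
  have hb : (Ideal.Quotient.mk (P ^ e) b) =
      algebraMap (A ⧸ p) (B ⧸ P ^ e) (Ideal.Quotient.mk p a) +
        Ideal.Quotient.mk (P ^ e) (b - algebraMap A B a) := by
    have h1 : algebraMap (A ⧸ p) (B ⧸ P ^ e) (Ideal.Quotient.mk p a) =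
        Ideal.Quotient.mk (P ^ e) (algebraMap A B a) := by
      have := IsScalarTower.algebraMap_apply A (A ⧸ p) (B ⧸ P ^ e) a
      rw [Ideal.Quotient.algebraMap_eq] at this
      rw [← this]
      rfl
    rw [h1, ← map_add]
    congr 1
    ring
  rw [hb, map_add, Algebra.trace_algebraMap, nsmul_eq_mul, hdim, zero_mul, zero_add]
  rw [← isNilpotent_iff_eq_zero]
  refine Algebra.isNilpotent_trace_of_isNilpotent ⟨e, ?_⟩
  rw [← map_pow, Ideal.Quotient.eq_zero_iff_mem]
  exact Ideal.pow_mem_pow ha e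

/-- **Wild lower bound.** If `pB = P^e * Q` with `P^e`, `Q` coprime, `B/P = A/p`, and
`dim_{A/p} B/P^e` (which is `e`) vanishes in `A/p`, then `P^e` divides the different
(i.e. the different exponent is at least `e`, not only `e - 1`). -/
theorem pow_dvd_differentIdeal_of_finrank_eq_zero
    [Algebra.IsSeparable (FractionRing A) (FractionRing B)]
    {p : Ideal A} [p.IsMaximal] (hp : p ≠ ⊥) (P Q : Ideal B) (e : ℕ)
    (hPQ : IsCoprime (P ^ e) Q) (hfac : P ^ e * Q = Ideal.map (algebraMap A B) p)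
    (hres : ∀ b : B, ∃ a : A, b - algebraMap A B a ∈ P)
    (hdim : ∀ [Algebra (A ⧸ p) (B ⧸ P ^ e)] [IsScalarTower A (A ⧸ p) (B ⧸ P ^ e)],
      ((Module.finrank (A ⧸ p) (B ⧸ P ^ e) : ℕ) : A ⧸ p) = 0) :
    P ^ e ∣ differentIdeal A B :=
  dvd_differentIdeal_of_isCoprime_of_trace_eq_zero A hp (P ^ e) Q hPQ hfac
    (fun y => trace_quotient_pow_eq_zero A P e hres hdim y)

end Fermat.Agent.S18lib.RH
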