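/-
S18lib / RH / Exponent (helper3): user-friendly exponent statements for the different.

`A ⊆ B` Dedekind (finite, torsion-free, separable), `P` a nonzero prime of `B` over the maximal
ideal `p` of `A` with trivial residue extension (`B = A + P`), `e = e(P | p)`:

* `sub_one_le_emultiplicity_differentIdeal` : `e - 1 ≤ d(P)` (always);
* `emultiplicity_differentIdeal_of_tame`    : `d(P) = e - 1` if `e ≠ 0` in `A / p`;
* `le_emultiplicity_differentIdeal_of_wild` : `e ≤ d(P)`     if `e = 0` in `A / p`.
Here `d(P) = emultiplicity P (differentIdeal A B)` and `e = p.ramificationIdx' P`.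
-/
import Mathlib
import Fermat.Agent.S18lib.RH.LocalDifferent

set_option autoImplicit false
set_option linter.deprecated false
set_option linter.unusedSectionVars false
set_option linter.style.haveILetI false

namespace Fermat.Agent.S18lib.RH

open Module nonZeroDivisors Ideal

attribute [local instance] FractionRing.liftAlgebra FractionRing.isScalarTower_liftAlgebra
  Ideal.Quotient.field

variable (A : Type*) {B : Type*} [CommRing A] [CommRing B] [Algebra A B]
  [IsDedekindDomain A] [IsDedekindDomain B] [IsTorsionFree A B] [Module.Finite A B]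

section

variable (p : Ideal A) [p.IsMaximal] (P : Ideal B) [P.IsPrime]

/-- `dim_{A/p} B/P^e = e` when the residue extension is trivial. -/
theorem finrank_quotient_pow_ramificationIdx' (hP : P ≠ ⊥) (he : p.ramificationIdx' P ≠ 0)
    (hres : ∀ b : B, ∃ a : A, b - algebraMap A B a ∈ P) :
    finrank (A ⧸ p) (B ⧸ P ^ p.ramificationIdx' P) = p.ramificationIdx' P := by
  haveI : NeZero (p.ramificationIdx' P) := ⟨he⟩
  rw [Ideal.finrank_prime_pow_ramificationIdx p P hP he]
  letI : Algebra (A ⧸ p) (B ⧸ P) := Ideal.Quotient.algebraQuotientOfRamificationIdxNeZero p P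
  have hsurj : Function.Surjective (algebraMap (A ⧸ p) (B ⧸ P)) := by
    intro y
    obtain ⟨b, rfl⟩ := Ideal.Quotient.mk_surjective y
    obtain ⟨a, ha⟩ := hres b
    refine ⟨Ideal.Quotient.mk p a, ?_⟩
    rw [Ideal.Quotient.algebraMap_quotient_of_ramificationIdx_neZero]
    exact ((Ideal.Quotient.mk_eq_mk_iff_sub_mem _ _).mpr ha).symm
  have h1 : finrank (A ⧸ p) (B ⧸ P) = 1 := by
    have hle : finrank (A ⧸ p) (B ⧸ P) ≤ 1 := by
      have := LinearMap.finrank_range_le (Algebra.linearMap (A ⧸ p) (B ⧸ P))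
      rw [LinearMap.range_eq_top.mpr hsurj, finrank_top, finrank_self] at this
      exact this
    have hpos : 0 < finrank (A ⧸ p) (B ⧸ P) := by
      haveI : Module.Finite (A ⧸ p) (B ⧸ P) :=
        Module.Finite.of_surjective (Algebra.linearMap (A ⧸ p) (B ⧸ P)) hsurj
      haveI : Nontrivial (B ⧸ P) := Ideal.Quotient.nontrivial_iff.mpr (Ideal.IsPrime.ne_top ‹_›)
      exact finrank_pos
    omega
  rw [h1, mul_one]

/-- the factorisation `pB = P^e * Q` with `Q` prime to `P`. -/
theorem exists_pow_ramificationIdx'_mul_eq (hp : p ≠ ⊥) (hP : P ≠ ⊥) :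
    ∃ Q : Ideal B, IsCoprime (P ^ p.ramificationIdx' P) Q ∧
      P ^ p.ramificationIdx' P * Q = p.map (algebraMap A B) := by
  have hp' : p.map (algebraMap A B) ≠ ⊥ :=
    (Ideal.map_eq_bot_iff_of_injective (FaithfulSMul.algebraMap_injective A B)).not.mpr hp
  haveI : P.IsMaximal := Ideal.IsPrime.isMaximal inferInstance hP
  obtain ⟨Q, h1, h2⟩ := Ideal.eq_prime_pow_mul_coprime hp' P
  rw [← Ideal.IsDedekindDomain.ramificationIdx'_eq_normalizedFactors_count hp' inferInstance hP]
    at h2
  refine ⟨Q, ?_, h2.symm⟩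
  exact (Ideal.isCoprime_iff_sup_eq.mpr h1).pow_left

theorem emultiplicity_map_eq_ramificationIdx' (hp : p ≠ ⊥) :
    emultiplicity P (p.map (algebraMap A B)) = (p.ramificationIdx' P : ℕ∞) := by
  have hp' : p.map (algebraMap A B) ≠ ⊥ :=
    (Ideal.map_eq_bot_iff_of_injective (FaithfulSMul.algebraMap_injective A B)).not.mpr hp
  rw [Ideal.IsDedekindDomain.ramificationIdx'_eq_multiplicity hp' inferInstance]
  by_cases hP : P = ⊥
  · subst hP
    rw [← Ideal.zero_eq_bot]
    rw [emultiplicity_zero_eq_zero_of_ne_zero _ hp', multiplicity_zero_eq_zero_of_ne_zero _ hp']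
    rfl
  · exact (FiniteMultiplicity.of_prime_left (Ideal.prime_of_isPrime hP inferInstance)
      hp').emultiplicity_eq_multiplicity

variable [Algebra.IsSeparable (FractionRing A) (FractionRing B)]

/-- `e - 1 ≤ d(P)`, in every characteristic. -/
theorem sub_one_le_emultiplicity_differentIdeal (hp : p ≠ ⊥) :
    ((p.ramificationIdx' P - 1 : ℕ) : ℕ∞) ≤ emultiplicity P (differentIdeal A B) := by
  rw [← pow_dvd_iff_le_emultiplicity]
  refine pow_sub_one_dvd_differentIdeal A P _ hp ?_
  rw [Ideal.dvd_iff_le]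
  exact Ideal.le_pow_ramificationIdx'

/-- **tame case**: `d(P) = e - 1`. -/
theorem emultiplicity_differentIdeal_of_tame (hp : p ≠ ⊥) (hP : P ≠ ⊥)
    (hres : ∀ b : B, ∃ a : A, b - algebraMap A B a ∈ P)
    (htame : ((p.ramificationIdx' P : ℕ) : A ⧸ p) ≠ 0) :
    emultiplicity P (differentIdeal A B) = ((p.ramificationIdx' P - 1 : ℕ) : ℕ∞) := by
  have he : p.ramificationIdx' P ≠ 0 := by
    intro h
    rw [h, Nat.cast_zero] at htame
    exact htame rfl
  obtain ⟨Q, hcop, hfac⟩ := exists_pow_ramificationIdx'_mul_eq A p P hp hP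
  have hnd : ¬ P ^ p.ramificationIdx' P ∣ differentIdeal A B := by
    refine not_dvd_differentIdeal_of_isCoprime_of_finrank_ne_zero A _ Q hcop hfac ?_
    intro i1 i2
    have key := finrank_quotient_pow_ramificationIdx' A p P hP he hres
    have halg : i1 = Ideal.Quotient.algebraQuotientPowRamificationIdx p P := by
      apply Algebra.algebra_ext
      intro r
      obtain ⟨a, rfl⟩ := Ideal.Quotient.mk_surjective r
      have h1 := (IsScalarTower.algebraMap_apply A (A ⧸ p) (B ⧸ P ^ p.ramificationIdx' P) a).symm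
      rw [Ideal.Quotient.algebraMap_eq] at h1
      rw [h1]
      rfl
    subst halg
    rw [key]
    exact htame
  rw [pow_dvd_iff_le_emultiplicity, not_le] at hnd
  have hlow := sub_one_le_emultiplicity_differentIdeal A p P hp
  have hfin : emultiplicity P (differentIdeal A B) ≠ ⊤ := ne_top_of_lt hnd
  obtain ⟨d, hd⟩ := ENat.ne_top_iff_exists.mp hfin
  rw [← hd] at hnd hlow ⊢
  rw [Nat.cast_lt] at hnd
  rw [Nat.cast_le] at hlow
  congr 1
  omega

/-- **wild case**: `e ≤ d(P)`. -/
theorem le_emultiplicity_differentIdeal_of_wild (hp : p ≠ ⊥) (hP : P ≠ ⊥)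
    (hover : p.map (algebraMap A B) ≤ P)
    (hres : ∀ b : B, ∃ a : A, b - algebraMap A B a ∈ P)
    (hwild : ((p.ramificationIdx' P : ℕ) : A ⧸ p) = 0) :
    ((p.ramificationIdx' P : ℕ) : ℕ∞) ≤ emultiplicity P (differentIdeal A B) := by
  have hp' : p.map (algebraMap A B) ≠ ⊥ :=
    (Ideal.map_eq_bot_iff_of_injective (FaithfulSMul.algebraMap_injective A B)).not.mpr hp
  have he : p.ramificationIdx' P ≠ 0 :=
    Ideal.IsDedekindDomain.ramificationIdx'_ne_zero hp' inferInstance hover
  obtain ⟨Q, hcop, hfac⟩ := exists_pow_ramificationIdx'_mul_eq A p P hp hP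
  rw [← pow_dvd_iff_le_emultiplicity]
  refine pow_dvd_differentIdeal_of_finrank_eq_zero A hp P Q _ hcop hfac hres ?_
  intro i1 i2
  have key := finrank_quotient_pow_ramificationIdx' A p P hP he hres
  have halg : i1 = Ideal.Quotient.algebraQuotientPowRamificationIdx p P := by
    apply Algebra.algebra_ext
    intro r
    obtain ⟨a, rfl⟩ := Ideal.Quotient.mk_surjective r
    have h1 := (IsScalarTower.algebraMap_apply A (A ⧸ p) (B ⧸ P ^ p.ramificationIdx' P) a).symm
    rw [Ideal.Quotient.algebraMap_eq] at h1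
    rw [h1]
    rfl
  subst halg
  rw [key]
  exact hwild

end

end Fermat.Agent.S18lib.RH
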