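/-
S18lib / RH / Tower (helper3): the tower formula for different exponents.

For Dedekind domains `A ⊆ B ⊆ C` and a prime `P_C` of `C` over the prime `P_B` of `B`:
`d(P_C | A) = d(P_C | B) + e(P_C | P_B) * d(P_B | A)`, where `d` is the multiplicity in the
different and `e(P_C | P_B)` the multiplicity of `P_C` in `P_B C`.
-/
import Mathlib

set_option autoImplicit false

namespace Fermat.Agent.S18lib.RH

open Module nonZeroDivisors

section Map

variable {B C : Type*} [CommRing B] [CommRing C] [Algebra B C]
  [IsDedekindDomain B] [IsDedekindDomain C]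

/-- multiplicity of a prime `P_C` in the extension `I C` of an ideal `I` of `B`:
it is the multiplicity of `P_B = P_C ∩ B` in `I` times the ramification exponent. -/
theorem emultiplicity_map_eq (P_B : Ideal B) [P_B.IsPrime] (hPB : P_B ≠ ⊥)
    (P_C : Ideal C) [P_C.IsPrime] (hPC : P_C ≠ ⊥)
    (hover : P_C.comap (algebraMap B C) = P_B) (I : Ideal B) (hI : I ≠ ⊥) :
    emultiplicity P_C (I.map (algebraMap B C)) =
      emultiplicity P_B I * emultiplicity P_C (P_B.map (algebraMap B C)) := by
  have hpB : Prime P_B := Ideal.prime_of_isPrime hPB inferInstance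
  have hpC : Prime P_C := Ideal.prime_of_isPrime hPC inferInstance
  have hfin : FiniteMultiplicity P_B I :=
    FiniteMultiplicity.of_prime_left hpB hI
  obtain ⟨J, hJ, hnd⟩ := hfin.exists_eq_pow_mul_and_not_dvd
  set d := multiplicity P_B I with hd
  have hdJ : ¬ P_C ∣ J.map (algebraMap B C) := by
    intro h
    apply hnd
    rw [Ideal.dvd_iff_le] at h ⊢
    rw [Ideal.map_le_iff_le_comap, hover] at h
    exact h
  have hmap : I.map (algebraMap B C) = (P_B.map (algebraMap B C)) ^ d * J.map (algebraMap B C) := by
    conv_lhs => rw [hJ]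
    rw [Ideal.map_mul, Ideal.map_pow]
  rw [hmap, emultiplicity_mul hpC, emultiplicity_pow hpC,
    emultiplicity_eq_zero.mpr hdJ, add_zero, hfin.emultiplicity_eq_multiplicity]

end Map

section Tower

attribute [local instance] FractionRing.liftAlgebra FractionRing.isScalarTower_liftAlgebra

variable (A B C : Type*) [CommRing A] [CommRing B] [CommRing C]
  [Algebra A B] [Algebra B C] [Algebra A C] [IsScalarTower A B C]
  [IsDedekindDomain A] [IsDedekindDomain B] [IsDedekindDomain C]
  [Module.IsTorsionFree A B] [Module.IsTorsionFree A C] [Module.IsTorsionFree B C]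
  [Module.Finite A B] [Module.Finite A C] [Module.Finite B C]
  [Algebra.IsSeparable (FractionRing A) (FractionRing C)]

/-- **Tower formula for different exponents**:
`d(P_C | A) = d(P_C | B) + d(P_B | A) * e(P_C | P_B)`. -/
theorem emultiplicity_differentIdeal_tower
    [Algebra.IsSeparable (FractionRing A) (FractionRing B)]
    (P_B : Ideal B) [P_B.IsPrime] (hPB : P_B ≠ ⊥)
    (P_C : Ideal C) [P_C.IsPrime] (hPC : P_C ≠ ⊥)
    (hover : P_C.comap (algebraMap B C) = P_B) :
    emultiplicity P_C (differentIdeal A C) =
      emultiplicity P_C (differentIdeal B C) +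
        emultiplicity P_B (differentIdeal A B) *
          emultiplicity P_C (P_B.map (algebraMap B C)) := by
  have hpC : Prime P_C := Ideal.prime_of_isPrime hPC inferInstance
  rw [differentIdeal_eq_differentIdeal_mul_differentIdeal A B C, emultiplicity_mul hpC,
    emultiplicity_map_eq P_B hPB P_C hPC hover _ differentIdeal_ne_bot]

end Tower

end Fermat.Agent.S18lib.RH
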