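/-
S18lib / RH / Table (helper3): the two-tower comparison of different exponents.

`diffExp A P : ℕ` is the exponent of the prime `P` of `B` in the different of `B / A`.
For Dedekind towers `A ⊆ B ⊆ C` and `A ⊆ B₁ ⊆ C` and a prime `P_C` of `C` (all residue extensions
trivial, residue characteristic `ℓ`):

* `diffExp_tower`            : `d(P_C | A) = d(P_C | B) + d(P_B | A) * e(P_C | P_B)`;
* `ramificationIdx'_two_towers` : `e(P_B | p) * e(P_C | P_B) = e(P₁ | p) * e(P_C | P₁)`;
* `le_diffExp_of_two_towers` : if `ℓ ∣ e(P₁ | p)` and `e(P_C | P_B) = 1` then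
  `(e(P_C | P₁) - 1) + e(P₁ | p) * e(P_C | P₁) ≤ d(P_B | A)`.
-/
import Mathlib
import Fermat.Agent.S18lib.RH.Exponent
import Fermat.Agent.S18lib.RH.Tower

set_option autoImplicit false
set_option linter.unusedSectionVars false
set_option linter.style.haveILetI false

namespace Fermat.Agent.S18lib.RH

open Module nonZeroDivisors Ideal

attribute [local instance] FractionRing.liftAlgebra FractionRing.isScalarTower_liftAlgebra
  Ideal.Quotient.field

/-- the exponent of `P` in the different of `B / A` -/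
noncomputable def diffExp (A : Type*) {B : Type*} [CommRing A] [CommRing B] [Algebra A B]
    [IsDomain A] [IsDedekindDomain B] [Module.IsTorsionFree A B]
    (P : Ideal B) : ℕ := multiplicity P (differentIdeal A B)

section Basic

variable (A : Type*) {B : Type*} [CommRing A] [CommRing B] [Algebra A B]
  [IsDedekindDomain A] [IsDedekindDomain B] [IsTorsionFree A B] [Module.Finite A B]
  [Algebra.IsSeparable (FractionRing A) (FractionRing B)]

theorem emultiplicity_differentIdeal_eq_diffExp (P : Ideal B) [P.IsPrime] (hP : P ≠ ⊥) :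
    emultiplicity P (differentIdeal A B) = (diffExp A P : ℕ∞) :=
  (FiniteMultiplicity.of_prime_left (Ideal.prime_of_isPrime hP inferInstance)
    differentIdeal_ne_bot).emultiplicity_eq_multiplicity

variable (p : Ideal A) [p.IsMaximal] (P : Ideal B) [P.IsPrime]

/-- `e - 1 ≤ d`. -/
theorem sub_one_le_diffExp (hp : p ≠ ⊥) (hP : P ≠ ⊥) :
    p.ramificationIdx' P - 1 ≤ diffExp A P := by
  have := sub_one_le_emultiplicity_differentIdeal A p P hp
  rwa [emultiplicity_differentIdeal_eq_diffExp A P hP, Nat.cast_le] at this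

/-- tame: `d = e - 1`. -/
theorem diffExp_of_tame (hp : p ≠ ⊥) (hP : P ≠ ⊥)
    (hres : ∀ b : B, ∃ a : A, b - algebraMap A B a ∈ P)
    (htame : ((p.ramificationIdx' P : ℕ) : A ⧸ p) ≠ 0) :
    diffExp A P = p.ramificationIdx' P - 1 := by
  have := emultiplicity_differentIdeal_of_tame A p P hp hP hres htame
  rwa [emultiplicity_differentIdeal_eq_diffExp A P hP, Nat.cast_inj] at this

/-- wild: `e ≤ d`. -/
theorem le_diffExp_of_wild (hp : p ≠ ⊥) (hP : P ≠ ⊥) (hover : p.map (algebraMap A B) ≤ P)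
    (hres : ∀ b : B, ∃ a : A, b - algebraMap A B a ∈ P)
    (hwild : ((p.ramificationIdx' P : ℕ) : A ⧸ p) = 0) :
    p.ramificationIdx' P ≤ diffExp A P := by
  have := le_emultiplicity_differentIdeal_of_wild A p P hp hP hover hres hwild
  rwa [emultiplicity_differentIdeal_eq_diffExp A P hP, Nat.cast_le] at this

open Polynomial in
/-- **upper bound from a derivative**: if `x` generates the fraction field extension and `g` is a
monic polynomial over `A` killing `x`, then `d(P) ≤ v_P(g'(x))`. -/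
theorem diffExp_le_multiplicity_aeval_derivative (x : B)
    (hx : Algebra.adjoin (FractionRing A) {algebraMap B (FractionRing B) x} = ⊤)
    (g : A[X]) (hgx : aeval x g = 0) (hg' : aeval x (derivative g) ≠ 0)
    (Q : Ideal B) [Q.IsPrime] (hQ : Q ≠ ⊥) :
    diffExp A Q ≤ multiplicity Q (Ideal.span {aeval x (derivative g)}) := by
  have hint : IsIntegral A x := Algebra.IsIntegral.isIntegral x
  obtain ⟨q, hq⟩ := minpoly.isIntegrallyClosed_dvd hint hgx
  have hder : aeval x (derivative g) = aeval x (derivative (minpoly A x)) * aeval x q := by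
    rw [hq, derivative_mul, map_add, map_mul, map_mul, minpoly.aeval, zero_mul, add_zero]
  have hmem : aeval x (derivative g) ∈ differentIdeal A B := by
    rw [hder]
    exact Ideal.mul_mem_right _ _
      (aeval_derivative_mem_differentIdeal A (FractionRing A) (FractionRing B) x hx)
  have hle : Ideal.span {aeval x (derivative g)} ≤ differentIdeal A B :=
    (Ideal.span_singleton_le_iff_mem _).mpr hmem
  have hne : Ideal.span {aeval x (derivative g)} ≠ ⊥ := by
    rwa [Ne, Ideal.span_singleton_eq_bot]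
  have hfin : FiniteMultiplicity Q (Ideal.span {aeval x (derivative g)}) :=
    FiniteMultiplicity.of_prime_left (Ideal.prime_of_isPrime hQ inferInstance) hne
  have h1 := emultiplicity_le_emultiplicity_of_dvd_right (a := Q) (Ideal.dvd_iff_le.mpr hle)
  rw [emultiplicity_differentIdeal_eq_diffExp A Q hQ, hfin.emultiplicity_eq_multiplicity,
    Nat.cast_le] at h1
  exact h1

end Basic

section Towers

variable (A B C : Type*) [CommRing A] [CommRing B] [CommRing C]
  [Algebra A B] [Algebra B C] [Algebra A C] [IsScalarTower A B C]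
  [IsDedekindDomain A] [IsDedekindDomain B] [IsDedekindDomain C]
  [Module.IsTorsionFree A B] [Module.IsTorsionFree A C] [Module.IsTorsionFree B C]
  [Module.Finite A B] [Module.Finite A C] [Module.Finite B C]
  [Algebra.IsSeparable (FractionRing A) (FractionRing C)]
  [Algebra.IsSeparable (FractionRing A) (FractionRing B)]
  [Algebra.IsSeparable (FractionRing B) (FractionRing C)]

/-- **tower formula** in `ℕ`. -/
theorem diffExp_tower (P_B : Ideal B) [P_B.IsPrime] (hPB : P_B ≠ ⊥)
    (P_C : Ideal C) [P_C.IsPrime] (hPC : P_C ≠ ⊥)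
    (hover : P_C.comap (algebraMap B C) = P_B) :
    diffExp A P_C = diffExp B P_C + diffExp A P_B * P_B.ramificationIdx' P_C := by
  haveI : P_B.IsMaximal := Ideal.IsPrime.isMaximal inferInstance hPB
  have h := emultiplicity_differentIdeal_tower A B C P_B hPB P_C hPC hover
  rw [emultiplicity_differentIdeal_eq_diffExp A P_C hPC,
    emultiplicity_differentIdeal_eq_diffExp B P_C hPC,
    emultiplicity_differentIdeal_eq_diffExp A P_B hPB,
    emultiplicity_map_eq_ramificationIdx' B P_B P_C hPB] at h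
  exact_mod_cast h

end Towers

section TwoTowers

variable (A B B₁ C : Type*) [CommRing A] [CommRing B] [CommRing B₁] [CommRing C]
  [Algebra A B] [Algebra B C] [Algebra A C] [IsScalarTower A B C]
  [Algebra A B₁] [Algebra B₁ C] [IsScalarTower A B₁ C]
  [IsDedekindDomain A] [IsDedekindDomain B] [IsDedekindDomain B₁] [IsDedekindDomain C]
  [Module.IsTorsionFree A B] [Module.IsTorsionFree A C] [Module.IsTorsionFree B C]
  [Module.IsTorsionFree A B₁] [Module.IsTorsionFree B₁ C]
  [Module.Finite A B] [Module.Finite A C] [Module.Finite B C]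
  [Module.Finite A B₁] [Module.Finite B₁ C]
  [Algebra.IsSeparable (FractionRing A) (FractionRing C)]
  [Algebra.IsSeparable (FractionRing A) (FractionRing B)]
  [Algebra.IsSeparable (FractionRing B) (FractionRing C)]
  [Algebra.IsSeparable (FractionRing A) (FractionRing B₁)]
  [Algebra.IsSeparable (FractionRing B₁) (FractionRing C)]

variable (p : Ideal A) [p.IsMaximal] (P_B : Ideal B) [P_B.IsPrime] (P₁ : Ideal B₁) [P₁.IsPrime]
  (P_C : Ideal C) [P_C.IsPrime]
  [P_C.LiesOver P_B] [P_B.LiesOver p] [P_C.LiesOver P₁] [P₁.LiesOver p]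

/-- multiplicativity of the ramification index along both towers -/
theorem ramificationIdx'_two_towers :
    p.ramificationIdx' P_B * P_B.ramificationIdx' P_C =
      p.ramificationIdx' P₁ * P₁.ramificationIdx' P_C := by
  rw [← Ideal.ramificationIdx'_algebra_tower' p P_B P_C,
    ← Ideal.ramificationIdx'_algebra_tower' p P₁ P_C]

/-- **two-tower lower bound**: if the bottom step `P₁ | p` of the second tower is wild and
`P_C` is unramified over `P_B`, then `d(P_B | A) ≥ (e(P_C | P₁) - 1) + e(P₁ | p) * e(P_C | P₁)`. -/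
theorem le_diffExp_of_two_towers (hp : p ≠ ⊥)
    (hres : ∀ c : C, ∃ a : A, c - algebraMap A C a ∈ P_C)
    (hwild : ((p.ramificationIdx' P₁ : ℕ) : A ⧸ p) = 0)
    (he : P_B.ramificationIdx' P_C = 1) :
    (P₁.ramificationIdx' P_C - 1) + p.ramificationIdx' P₁ * P₁.ramificationIdx' P_C ≤
      diffExp A P_B := by
  have hPB : P_B ≠ ⊥ := Ideal.ne_bot_of_liesOver_of_ne_bot hp P_B
  have hP1 : P₁ ≠ ⊥ := Ideal.ne_bot_of_liesOver_of_ne_bot hp P₁
  have hPC : P_C ≠ ⊥ := Ideal.ne_bot_of_liesOver_of_ne_bot hPB P_C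
  haveI : P_B.IsMaximal := Ideal.IsPrime.isMaximal inferInstance hPB
  haveI : P₁.IsMaximal := Ideal.IsPrime.isMaximal inferInstance hP1
  have hoverB : P_C.comap (algebraMap B C) = P_B := (Ideal.over_def P_C P_B).symm
  have hover1 : P_C.comap (algebraMap B₁ C) = P₁ := (Ideal.over_def P_C P₁).symm
  -- first tower
  have t1 := diffExp_tower A B C P_B hPB P_C hPC hoverB
  have hresB : ∀ c : C, ∃ b : B, c - algebraMap B C b ∈ P_C := by
    intro c
    obtain ⟨a, ha⟩ := hres c
    exact ⟨algebraMap A B a, by rwa [← IsScalarTower.algebraMap_apply A B C]⟩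
  have htameB : ((P_B.ramificationIdx' P_C : ℕ) : B ⧸ P_B) ≠ 0 := by
    rw [he, Nat.cast_one]; exact one_ne_zero
  have d0 : diffExp B P_C = 0 := by
    rw [diffExp_of_tame B P_B P_C hPB hPC hresB htameB, he]
  -- second tower
  have t2 := diffExp_tower A B₁ C P₁ hP1 P_C hPC hover1
  have hres1 : ∀ b : B₁, ∃ a : A, b - algebraMap A B₁ a ∈ P₁ := by
    intro b
    obtain ⟨a, ha⟩ := hres (algebraMap B₁ C b)
    refine ⟨a, ?_⟩
    rw [← hover1, Ideal.mem_comap, map_sub, ← IsScalarTower.algebraMap_apply A B₁ C]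
    exact ha
  have hover1' : p.map (algebraMap A B₁) ≤ P₁ := by
    rw [Ideal.map_le_iff_le_comap, ← Ideal.under_def, ← Ideal.over_def P₁ p]
  have w1 := le_diffExp_of_wild A p P₁ hp hP1 hover1' hres1 hwild
  have l1 := sub_one_le_diffExp B₁ P₁ P_C hP1 hPC
  rw [d0, he, mul_one, zero_add] at t1
  rw [← t1, t2]
  exact Nat.add_le_add l1 (Nat.mul_le_mul_right _ w1)

/-- the residue characteristic does not change along `P | p` -/
theorem natCast_quotient_eq_zero_iff (n : ℕ) :
    ((n : ℕ) : B ⧸ P_B) = 0 ↔ ((n : ℕ) : A ⧸ p) = 0 := by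
  have hinj : Function.Injective (algebraMap (A ⧸ p) (B ⧸ P_B)) :=
    (algebraMap (A ⧸ p) (B ⧸ P_B)).injective
  rw [← map_natCast (algebraMap (A ⧸ p) (B ⧸ P_B)) n, map_eq_zero_iff _ hinj]

/-- **two-tower upper bound** (general form): if the top step `P_C | P₁` of the second tower is
tame and `d(P₁ | A) ≤ D₁`, then `d(P_C | A) ≤ (e₂ - 1) + D₁ * e₂`, and
`d(P_C | B) + d(P_B | A) * e(P_C | P_B) = d(P_C | A)`. -/
theorem diffExp_le_of_tame_top (hp : p ≠ ⊥)
    (hres : ∀ c : C, ∃ a : A, c - algebraMap A C a ∈ P_C)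
    (htame : ((P₁.ramificationIdx' P_C : ℕ) : A ⧸ p) ≠ 0) {D₁ : ℕ} (hD₁ : diffExp A P₁ ≤ D₁) :
    diffExp B P_C + diffExp A P_B * P_B.ramificationIdx' P_C ≤
      (P₁.ramificationIdx' P_C - 1) + D₁ * P₁.ramificationIdx' P_C := by
  have hPB : P_B ≠ ⊥ := Ideal.ne_bot_of_liesOver_of_ne_bot hp P_B
  have hP1 : P₁ ≠ ⊥ := Ideal.ne_bot_of_liesOver_of_ne_bot hp P₁
  have hPC : P_C ≠ ⊥ := Ideal.ne_bot_of_liesOver_of_ne_bot hPB P_C
  haveI : P₁.IsMaximal := Ideal.IsPrime.isMaximal inferInstance hP1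
  have hoverB : P_C.comap (algebraMap B C) = P_B := (Ideal.over_def P_C P_B).symm
  have hover1 : P_C.comap (algebraMap B₁ C) = P₁ := (Ideal.over_def P_C P₁).symm
  have t1 := diffExp_tower A B C P_B hPB P_C hPC hoverB
  have t2 := diffExp_tower A B₁ C P₁ hP1 P_C hPC hover1
  have hres1 : ∀ c : C, ∃ b : B₁, c - algebraMap B₁ C b ∈ P_C := by
    intro c
    obtain ⟨a, ha⟩ := hres c
    exact ⟨algebraMap A B₁ a, by rwa [← IsScalarTower.algebraMap_apply A B₁ C]⟩
  have htame1 : ((P₁.ramificationIdx' P_C : ℕ) : B₁ ⧸ P₁) ≠ 0 := by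
    rwa [Ne, natCast_quotient_eq_zero_iff A B₁ p P₁]
  have d1 := diffExp_of_tame B₁ P₁ P_C hP1 hPC hres1 htame1
  rw [← t1, t2, d1]
  exact Nat.add_le_add_left (Nat.mul_le_mul_right _ hD₁) _

/-- pure arithmetic for `diffExp_lt_two_mul_of_two_towers`. -/
theorem table_arith {ℓ e₁ e₂ D₁ eB e'' dB d'' : ℕ}
    (h : (ℓ = 3 ∧ e₁ = 3 ∧ e₂ = 2 ∧ D₁ = 3) ∨ (ℓ = 2 ∧ e₁ = 4 ∧ e₂ = 3 ∧ D₁ = 4))
    (hmul : eB * e'' = e₁ * e₂) (hle : d'' + dB * e'' ≤ (e₂ - 1) + D₁ * e₂)
    (hL : eB - 1 ≤ dB) (hW : ℓ ∣ eB → eB ≤ dB) (hT : ¬ ℓ ∣ e'' → d'' = e'' - 1) :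
    d'' < 2 * e'' := by
  have h0 : 0 < e'' := Nat.pos_of_ne_zero (by
    rintro rfl
    rcases h with ⟨-, rfl, rfl, -⟩ | ⟨-, rfl, rfl, -⟩ <;> simp at hmul)
  by_cases hdvd : ℓ ∣ e''
  · rcases h with ⟨rfl, rfl, rfl, rfl⟩ | ⟨rfl, rfl, rfl, rfl⟩
    · have he'' : e'' ∣ 6 := ⟨eB, by rw [mul_comm]; exact hmul.symm⟩
      have h6 : e'' ≤ 6 := Nat.le_of_dvd (by norm_num) he''
      interval_cases e'' <;> omega
    · have he'' : e'' ∣ 12 := ⟨eB, by rw [mul_comm]; exact hmul.symm⟩
      have h12 : e'' ≤ 12 := Nat.le_of_dvd (by norm_num) he''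
      interval_cases e''
      · omega
      · have h6 : eB = 6 := by omega
        subst h6
        have := hW (by norm_num)
        omega
      · omega
      · omega
      · omega
      · have h2 : eB = 2 := by omega
        subst h2
        have := hW (by norm_num)
        omega
      · omega
      · omega
      · omega
      · omega
      · omega
      · omega
  · have := hT hdvd
    omega

/-- **(Table')**: in residue characteristic `ℓ`, with the second tower `A ⊆ B₁ ⊆ C` having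
`(e(P₁|p), e(P_C|P₁), d(P₁|A) ≤ ·) = (3, 2, 3)` for `ℓ = 3` resp. `(4, 3, 4)` for `ℓ = 2`,
every intermediate `B` satisfies `d(P_C | B) < 2 e(P_C | P_B)`. -/
theorem diffExp_lt_two_mul_of_two_towers (hp : p ≠ ⊥)
    (hres : ∀ c : C, ∃ a : A, c - algebraMap A C a ∈ P_C)
    {ℓ : ℕ} (hchar : ∀ n : ℕ, ((n : ℕ) : A ⧸ p) = 0 ↔ ℓ ∣ n) {D₁ : ℕ}
    (h : (ℓ = 3 ∧ p.ramificationIdx' P₁ = 3 ∧ P₁.ramificationIdx' P_C = 2 ∧ D₁ = 3) ∨
      (ℓ = 2 ∧ p.ramificationIdx' P₁ = 4 ∧ P₁.ramificationIdx' P_C = 3 ∧ D₁ = 4))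
    (hD₁ : diffExp A P₁ ≤ D₁) :
    diffExp B P_C < 2 * P_B.ramificationIdx' P_C := by
  have hPB : P_B ≠ ⊥ := Ideal.ne_bot_of_liesOver_of_ne_bot hp P_B
  have hPC : P_C ≠ ⊥ := Ideal.ne_bot_of_liesOver_of_ne_bot hPB P_C
  have htame : ((P₁.ramificationIdx' P_C : ℕ) : A ⧸ p) ≠ 0 := by
    rw [Ne, hchar]
    rcases h with ⟨rfl, -, h2, -⟩ | ⟨rfl, -, h2, -⟩ <;> rw [h2] <;> norm_num
  have hle := diffExp_le_of_tame_top A B B₁ C p P_B P₁ P_C hp hres htame hD₁
  have hmul := ramificationIdx'_two_towers A B B₁ C p P_B P₁ P_C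
  have hL := sub_one_le_diffExp A p P_B hp hPB
  have hoverB : p.map (algebraMap A B) ≤ P_B := by
    rw [Ideal.map_le_iff_le_comap, ← Ideal.under_def, ← Ideal.over_def P_B p]
  have hresB : ∀ b : B, ∃ a : A, b - algebraMap A B a ∈ P_B := by
    intro b
    obtain ⟨a, ha⟩ := hres (algebraMap B C b)
    refine ⟨a, ?_⟩
    rw [Ideal.over_def P_C P_B, Ideal.under_def, Ideal.mem_comap, map_sub,
      ← IsScalarTower.algebraMap_apply A B C]
    exact ha
  have hW : ℓ ∣ p.ramificationIdx' P_B → p.ramificationIdx' P_B ≤ diffExp A P_B := fun hd =>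
    le_diffExp_of_wild A p P_B hp hPB hoverB hresB ((hchar _).mpr hd)
  have hresC : ∀ c : C, ∃ b : B, c - algebraMap B C b ∈ P_C := by
    intro c
    obtain ⟨a, ha⟩ := hres c
    exact ⟨algebraMap A B a, by rwa [← IsScalarTower.algebraMap_apply A B C]⟩
  haveI : P_B.IsMaximal := Ideal.IsPrime.isMaximal inferInstance hPB
  have hT : ¬ ℓ ∣ P_B.ramificationIdx' P_C → diffExp B P_C = P_B.ramificationIdx' P_C - 1 := by
    intro hnd
    refine diffExp_of_tame B P_B P_C hPB hPC hresC ?_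
    rw [Ne, natCast_quotient_eq_zero_iff A B p P_B, hchar]
    exact hnd
  exact table_arith h hmul hle hL hW hT

end TwoTowers

end Fermat.Agent.S18lib.RH
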