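/-
S18lib / RH / TableCor (helper3): (Table') in the shape consumed by `Norm/TraceIdeal` (helper8):
there is an exponent `m` with `P_C ^ m ∣ (P_B ^ 2) C` and `¬ P_C ^ m ∣ Diff(C / B)`.
-/
import Mathlib
import Fermat.Agent.S18lib.RH.Table

set_option autoImplicit false
set_option linter.unusedSectionVars false
set_option linter.style.haveILetI false

namespace Fermat.Agent.S18lib.RH

open Module nonZeroDivisors Ideal

attribute [local instance] FractionRing.liftAlgebra FractionRing.isScalarTower_liftAlgebra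
  Ideal.Quotient.field

section

variable (A B B₁ C : Type*) [CommRing A] [CommRing B] [CommRing B₁] [CommRing C]
  [Algebra A B] [Algebra B C] [Algebra A C] [IsScalarTower A B C]
  [Algebra A B₁] [Algebra B₁ C] [IsScalarTower A B₁ C]
  [IsDedekindDomain A] [IsDedekindDomain B] [IsDedekindDomain B₁] [IsDedekindDomain C]
  [Module.IsTorsionFree A B] [Module.IsTorsionFree A C] [Module.IsTorsionFree B C]
  [Module.IsTorsionFree A B₁] [Module.IsTorsionFree B₁ C]
  [Module.Finite A B] [Module.Finite A C] [Module.Finite B C]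
  [Module.Finite A B₁] [Module.Finite B₁ C]
  [Algebra.IsSeparable (FractionRing A) (FractionRing C)]
  [Algebra.IsSeparable (FractionRing A) (FractionRing B)]
  [Algebra.IsSeparable (FractionRing B) (FractionRing C)]
  [Algebra.IsSeparable (FractionRing A) (FractionRing B₁)]
  [Algebra.IsSeparable (FractionRing B₁) (FractionRing C)]

variable (p : Ideal A) [p.IsMaximal] (P_B : Ideal B) [P_B.IsPrime] (P₁ : Ideal B₁) [P₁.IsPrime]
  (P_C : Ideal C) [P_C.IsPrime]
  [P_C.LiesOver P_B] [P_B.LiesOver p] [P_C.LiesOver P₁] [P₁.LiesOver p]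

/-- **(Table')**, ideal-divisibility form. -/
theorem exists_pow_dvd_sq_and_not_dvd_differentIdeal (hp : p ≠ ⊥)
    (hres : ∀ c : C, ∃ a : A, c - algebraMap A C a ∈ P_C)
    {ℓ : ℕ} (hchar : ∀ n : ℕ, ((n : ℕ) : A ⧸ p) = 0 ↔ ℓ ∣ n) {D₁ : ℕ}
    (h : (ℓ = 3 ∧ p.ramificationIdx' P₁ = 3 ∧ P₁.ramificationIdx' P_C = 2 ∧ D₁ = 3) ∨
      (ℓ = 2 ∧ p.ramificationIdx' P₁ = 4 ∧ P₁.ramificationIdx' P_C = 3 ∧ D₁ = 4))
    (hD₁ : diffExp A P₁ ≤ D₁) :
    ∃ m : ℕ, P_C ^ m ∣ (P_B ^ 2).map (algebraMap B C) ∧ ¬ P_C ^ m ∣ differentIdeal B C := by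
  have hPB : P_B ≠ ⊥ := Ideal.ne_bot_of_liesOver_of_ne_bot hp P_B
  have hPC : P_C ≠ ⊥ := Ideal.ne_bot_of_liesOver_of_ne_bot hPB P_C
  have hlt := diffExp_lt_two_mul_of_two_towers A B B₁ C p P_B P₁ P_C hp hres hchar h hD₁
  refine ⟨2 * P_B.ramificationIdx' P_C, ?_, ?_⟩
  · rw [Ideal.map_pow, mul_comm, pow_mul]
    exact pow_dvd_pow_of_dvd (Ideal.dvd_iff_le.mpr Ideal.le_pow_ramificationIdx') 2
  · rw [pow_dvd_iff_le_emultiplicity, emultiplicity_differentIdeal_eq_diffExp B P_C hPC,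
      Nat.cast_le, not_le]
    exact hlt

end

end Fermat.Agent.S18lib.RH
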