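/-
S18lib / RH / TableInput (helper3): producer of the numerical input of (Table') from two relations.

Towers `A ⊆ B₁ ⊆ C` of Dedekind domains, `p = (π)` maximal in `A`, `P_C` over `P₁` over `p`,
`s + 1 = 0` in `A`.  If `hh ∈ B₁` is primitive for `Frac B₁ / Frac A` and
  `π * hh ^ s = (hh + 1) ^ (s + 1)`   in `B₁`,
  `(hh + 1) * u = w ^ t`               in `C`   with `u ∉ P_C`, `w ∈ P_C \ P_C ^ 2`,
then `e(P₁ | p) = s + 1`, `e(P_C | P₁) = t` and `d(P₁ | A) ≤ s + 1`.
(`ℓ = 3`: `s = 2, t = 2`, `u = mm + 1`, `w = mm - 1`;  `ℓ = 2`: `s = 3, t = 3`,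
`u = mm ^ 2 + mm + 1`, `w = mm + 1`.)
-/
import Mathlib
import Fermat.Agent.S18lib.RH.TableCor

set_option autoImplicit false
set_option linter.deprecated false
set_option linter.unusedSectionVars false
set_option linter.style.haveILetI false

namespace Fermat.Agent.S18lib.RH

open Module nonZeroDivisors Ideal Polynomial IntermediateField

attribute [local instance] FractionRing.liftAlgebra FractionRing.isScalarTower_liftAlgebra
  Ideal.Quotient.field

section Val

variable {R : Type*} [CommRing R] [IsDedekindDomain R] (P : Ideal R) [P.IsPrime]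

theorem emultiplicity_span_mul (hP : P ≠ ⊥) (a b : R) :
    emultiplicity P (span {a * b}) = emultiplicity P (span {a}) + emultiplicity P (span {b}) := by
  rw [← Ideal.span_singleton_mul_span_singleton]
  exact emultiplicity_mul (Ideal.prime_of_isPrime hP inferInstance)

theorem emultiplicity_span_pow (hP : P ≠ ⊥) (a : R) (n : ℕ) :
    emultiplicity P (span {a ^ n}) = n * emultiplicity P (span {a}) := by
  rw [← Ideal.span_singleton_pow]
  exact emultiplicity_pow (Ideal.prime_of_isPrime hP inferInstance)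

theorem le_emultiplicity_span_iff (a : R) (n : ℕ) :
    (n : ℕ∞) ≤ emultiplicity P (span {a}) ↔ a ∈ P ^ n := by
  rw [← pow_dvd_iff_le_emultiplicity, Ideal.dvd_iff_le, Ideal.span_singleton_le_iff_mem]

theorem emultiplicity_span_eq_zero_iff (a : R) : emultiplicity P (span {a}) = 0 ↔ a ∉ P := by
  rw [emultiplicity_eq_zero, Ideal.dvd_iff_le, Ideal.span_singleton_le_iff_mem]

theorem emultiplicity_span_eq_one (a : R) (h1 : a ∈ P) (h2 : a ∉ P ^ 2) :
    emultiplicity P (span {a}) = 1 := by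
  have hle : ((1 : ℕ) : ℕ∞) ≤ emultiplicity P (span {a}) :=
    (le_emultiplicity_span_iff P a 1).mpr (by simpa using h1)
  have hlt : ¬ ((2 : ℕ) : ℕ∞) ≤ emultiplicity P (span {a}) :=
    fun h => h2 ((le_emultiplicity_span_iff P a 2).mp h)
  cases h : emultiplicity P (span {a}) with
  | top => rw [h] at hlt; exact absurd le_top hlt
  | coe n =>
    rw [h] at hle hlt
    rw [Nat.cast_le] at hle hlt
    have : n = 1 := by omega
    rw [this]; rfl

end Val

section Poly

variable {A : Type*} [CommRing A] [Nontrivial A] (π : A) (s : ℕ)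

/-- the polynomial `(T + 1) ^ (s + 1) - π T ^ s` -/
noncomputable def gPoly : A[X] := (X + 1) ^ (s + 1) - Polynomial.C π * X ^ s

theorem gPoly_aux :
    ((X : A[X]) + 1).Monic ∧ (((X : A[X]) + 1) ^ (s + 1)).Monic ∧
      (((X : A[X]) + 1) ^ (s + 1)).natDegree = s + 1 ∧
      (Polynomial.C π * X ^ s : A[X]).degree < (((X : A[X]) + 1) ^ (s + 1)).degree := by
  have h1 : ((X : A[X]) + 1).Monic := by
    have := monic_X_add_C (1 : A)
    simpa using this
  have h2 : (((X : A[X]) + 1) ^ (s + 1)).Monic := h1.pow _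
  have h3 : (((X : A[X]) + 1) ^ (s + 1)).natDegree = s + 1 := by
    rw [h1.natDegree_pow]
    have : ((X : A[X]) + 1).natDegree = 1 := by
      have := natDegree_X_add_C (1 : A)
      simpa using this
    rw [this, mul_one]
  refine ⟨h1, h2, h3, ?_⟩
  rw [degree_eq_natDegree h2.ne_zero, h3]
  calc (Polynomial.C π * X ^ s : A[X]).degree ≤ (s : WithBot ℕ) := degree_C_mul_X_pow_le s π
    _ < ((s + 1 : ℕ) : WithBot ℕ) := by exact_mod_cast Nat.lt_succ_self s

theorem gPoly_monic : (gPoly π s).Monic := by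
  obtain ⟨_, h2, _, h4⟩ := gPoly_aux π s
  exact h2.sub_of_left h4

theorem gPoly_natDegree : (gPoly π s).natDegree = s + 1 := by
  obtain ⟨_, h2, h3, h4⟩ := gPoly_aux π s
  have h5 : (Polynomial.C π * X ^ s : A[X]).natDegree < (((X : A[X]) + 1) ^ (s + 1)).natDegree := by
    rw [h3]
    exact (natDegree_C_mul_X_pow_le π s).trans_lt (Nat.lt_succ_self s)
  rw [gPoly, natDegree_sub_eq_left_of_natDegree_lt h5, h3]

theorem aeval_gPoly {B : Type*} [CommRing B] [Algebra A B] (x : B) :
    aeval x (gPoly π s) = (x + 1) ^ (s + 1) - algebraMap A B π * x ^ s := by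
  simp only [gPoly, map_sub, map_pow, map_add, map_mul, aeval_X, aeval_C, map_one]

theorem aeval_derivative_gPoly {B : Type*} [CommRing B] [Algebra A B] (x : B)
    (hchar : ((s + 1 : ℕ) : A) = 0) :
    aeval x (derivative (gPoly π s)) = algebraMap A B π * x ^ (s - 1) := by
  have hsA : ((s : ℕ) : A) = -1 := by
    have : ((s : ℕ) : A) + 1 = 0 := by exact_mod_cast hchar
    exact eq_neg_of_add_eq_zero_left this
  have h1 : ((s + 1 : ℕ) : B) = 0 := by
    have := congrArg (algebraMap A B) hchar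
    simpa using this
  have h2 : ((s : ℕ) : B) = -1 := by
    have := congrArg (algebraMap A B) hsA
    simpa using this
  simp only [gPoly, derivative_sub, derivative_pow, derivative_add, derivative_X, derivative_one,
    add_zero, mul_one, derivative_mul, derivative_C, zero_mul, zero_add]
  simp only [map_sub, map_mul, map_pow, map_add, aeval_X, aeval_C, map_one, map_natCast]
  rw [h1, h2]
  ring

end Poly

section Input

variable (A B₁ Ct : Type*) [CommRing A] [CommRing B₁] [CommRing Ct]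
  [Algebra A B₁] [Algebra B₁ Ct] [Algebra A Ct] [IsScalarTower A B₁ Ct]
  [IsDedekindDomain A] [IsDedekindDomain B₁] [IsDedekindDomain Ct]
  [Module.IsTorsionFree A B₁] [Module.IsTorsionFree B₁ Ct]
  [Module.Finite A B₁]
  [Algebra.IsSeparable (FractionRing A) (FractionRing B₁)]
  (K L : Type*) [Field K] [Field L] [Algebra A K] [IsFractionRing A K] [Algebra B₁ L]
  [IsFractionRing B₁ L] [Algebra K L] [Algebra A L] [IsScalarTower A K L] [IsScalarTower A B₁ L]
  [FiniteDimensional K L] [Algebra.IsSeparable K L]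

variable (p : Ideal A) [p.IsMaximal] (P₁ : Ideal B₁) [P₁.IsPrime]
  (P_C : Ideal Ct) [P_C.IsPrime] [P_C.LiesOver P₁] [P₁.LiesOver p]

omit [Algebra A Ct] [IsScalarTower A B₁ Ct] [Module.IsTorsionFree B₁ Ct] [IsDedekindDomain Ct]
  [Algebra B₁ Ct] in
/-- **upper bound from a derivative**, arbitrary models `K`, `L` of the fraction fields. -/
theorem diffExp_le_multiplicity_aeval_derivative' (x : B₁)
    (hx : Algebra.adjoin K {algebraMap B₁ L x} = ⊤)
    (g : A[X]) (hgx : aeval x g = 0) (hg' : aeval x (derivative g) ≠ 0)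
    (Q : Ideal B₁) [Q.IsPrime] (hQ : Q ≠ ⊥) :
    diffExp A Q ≤ multiplicity Q (Ideal.span {aeval x (derivative g)}) := by
  haveI : IsIntegralClosure B₁ A L := IsIntegralClosure.of_isIntegrallyClosed B₁ A L
  have hint : IsIntegral A x := Algebra.IsIntegral.isIntegral x
  obtain ⟨q, hq⟩ := minpoly.isIntegrallyClosed_dvd hint hgx
  have hder : aeval x (derivative g) = aeval x (derivative (minpoly A x)) * aeval x q := by
    rw [hq, derivative_mul, map_add, map_mul, map_mul, minpoly.aeval, zero_mul, add_zero]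
  have hmem : aeval x (derivative g) ∈ differentIdeal A B₁ := by
    rw [hder]
    exact Ideal.mul_mem_right _ _ (aeval_derivative_mem_differentIdeal A K L x hx)
  have hle : Ideal.span {aeval x (derivative g)} ≤ differentIdeal A B₁ :=
    (Ideal.span_singleton_le_iff_mem _).mpr hmem
  have hne : Ideal.span {aeval x (derivative g)} ≠ ⊥ := by
    rwa [Ne, Ideal.span_singleton_eq_bot]
  have hfin : FiniteMultiplicity Q (Ideal.span {aeval x (derivative g)}) :=
    FiniteMultiplicity.of_prime_left (Ideal.prime_of_isPrime hQ inferInstance) hne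
  have h1 := emultiplicity_le_emultiplicity_of_dvd_right (a := Q) (Ideal.dvd_iff_le.mpr hle)
  rw [emultiplicity_differentIdeal_eq_diffExp A Q hQ, hfin.emultiplicity_eq_multiplicity,
    Nat.cast_le] at h1
  exact h1

omit [Algebra A Ct] [IsScalarTower A B₁ Ct] [Module.IsTorsionFree B₁ Ct] [IsDedekindDomain Ct]
  [Algebra B₁ Ct] [Algebra.IsSeparable (FractionRing A) (FractionRing B₁)] [IsDedekindDomain A]
  [IsDedekindDomain B₁] [Module.IsTorsionFree A B₁] [Module.Finite A B₁] [IsFractionRing B₁ L]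
  [FiniteDimensional K L] [Algebra.IsSeparable K L] in
/-- the degree bound `[L : K] ≤ s + 1`. -/
theorem finrank_le_of_gPoly [Nontrivial A] (π : A) (s : ℕ) (hh : B₁)
    (hR1 : algebraMap A B₁ π * hh ^ s = (hh + 1) ^ (s + 1))
    (hprim : Algebra.adjoin K {algebraMap B₁ L hh} = ⊤) :
    finrank K L ≤ s + 1 := by
  have hgx : aeval hh (gPoly π s) = 0 := by rw [aeval_gPoly, hR1, sub_self]
  set y := algebraMap B₁ L hh with hy
  have hroot : aeval y ((gPoly π s).map (algebraMap A K)) = 0 := by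
    rw [aeval_map_algebraMap, hy, aeval_algebraMap_apply, hgx, map_zero]
  have hyint : IsIntegral K y :=
    ⟨(gPoly π s).map (algebraMap A K), (gPoly_monic π s).map _, hroot⟩
  have htop : K⟮y⟯ = ⊤ := by
    apply IntermediateField.toSubalgebra_injective
    rw [IntermediateField.adjoin_simple_toSubalgebra_of_isAlgebraic hyint.isAlgebraic, hprim,
      IntermediateField.top_toSubalgebra]
  have h1 := IntermediateField.adjoin.finrank hyint
  rw [htop, IntermediateField.finrank_top'] at h1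
  rw [h1]
  have hdvd : minpoly K y ∣ (gPoly π s).map (algebraMap A K) :=
    minpoly.dvd _ _ hroot
  have := natDegree_le_of_dvd hdvd ((gPoly_monic π s).map _).ne_zero
  rwa [natDegree_map_eq_of_injective (IsFractionRing.injective A K), gPoly_natDegree] at this

/-- **numerical input of (Table')** from the two relations. -/
theorem table_input (hp : p ≠ ⊥) (π : A) (hπ : p = span {π})
    (s t : ℕ) (ht : 1 ≤ t) (hchar : ((s + 1 : ℕ) : A) = 0)
    (hh : B₁) (u w : Ct)
    (hR1 : algebraMap A B₁ π * hh ^ s = (hh + 1) ^ (s + 1))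
    (hR2 : (algebraMap B₁ Ct hh + 1) * u = w ^ t)
    (hu : u ∉ P_C) (hw : w ∈ P_C) (hw2 : w ∉ P_C ^ 2)
    (hprim : Algebra.adjoin K {algebraMap B₁ L hh} = ⊤) :
    p.ramificationIdx' P₁ = s + 1 ∧ P₁.ramificationIdx' P_C = t ∧ diffExp A P₁ ≤ s + 1 := by
  classical
  have hP₁ : P₁ ≠ ⊥ := Ideal.ne_bot_of_liesOver_of_ne_bot hp P₁
  have hPC : P_C ≠ ⊥ := Ideal.ne_bot_of_liesOver_of_ne_bot hP₁ P_C
  have hprime₁ : Prime P₁ := Ideal.prime_of_isPrime hP₁ inferInstance
  have hprimeC : Prime P_C := Ideal.prime_of_isPrime hPC inferInstance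
  -- `w ≠ 0`, `hh + 1 ≠ 0`
  have hw0 : w ≠ 0 := fun h => hw2 (h ▸ Ideal.zero_mem _)
  have hh1 : hh + 1 ≠ 0 := by
    intro h
    have : algebraMap B₁ Ct hh + 1 = 0 := by
      have := congrArg (algebraMap B₁ Ct) h
      simpa using this
    rw [this, zero_mul] at hR2
    exact hw0 ((pow_eq_zero_iff (by omega : t ≠ 0)).mp hR2.symm)
  -- valuations in `C`
  have hvw : emultiplicity P_C (span {w}) = 1 := emultiplicity_span_eq_one P_C w hw hw2
  have hvu : emultiplicity P_C (span {u}) = 0 := (emultiplicity_span_eq_zero_iff P_C u).mpr hu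
  have hvC : emultiplicity P_C (span {algebraMap B₁ Ct (hh + 1)}) = (t : ℕ∞) := by
    have h1 : emultiplicity P_C (span {(algebraMap B₁ Ct hh + 1) * u}) =
        emultiplicity P_C (span {w ^ t}) := by rw [hR2]
    rw [emultiplicity_span_mul P_C hPC, emultiplicity_span_pow P_C hPC, hvu, hvw, add_zero,
      mul_one] at h1
    rw [map_add, map_one]
    exact h1
  -- valuations in `B₁`
  have hI : (span {hh + 1} : Ideal B₁) ≠ ⊥ := by
    rwa [Ne, Ideal.span_singleton_eq_bot]
  have hfin : FiniteMultiplicity P₁ (span {hh + 1}) := FiniteMultiplicity.of_prime_left hprime₁ hI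
  obtain ⟨a, hva⟩ : ∃ a : ℕ, emultiplicity P₁ (span {hh + 1}) = (a : ℕ∞) :=
    ⟨_, hfin.emultiplicity_eq_multiplicity⟩
  have hmap := Ideal.IsDedekindDomain.emultiplicity_map_eq_ramificationIdx'_mul (R := B₁) (S := Ct)
    (v := P₁) (w := P_C) hI hprime₁.irreducible hprimeC.irreducible hPC
  rw [Ideal.map_span, Set.image_singleton, hvC, hva] at hmap
  have hta : t = P₁.ramificationIdx' P_C * a := by exact_mod_cast hmap
  -- `hh + 1 ∈ P₁`, `hh ∉ P₁`
  have ha1 : 1 ≤ a := by
    rcases Nat.eq_zero_or_pos a with h | h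
    · rw [h, mul_zero] at hta; omega
    · exact h
  have hmem : hh + 1 ∈ P₁ := by
    have : ((1 : ℕ) : ℕ∞) ≤ emultiplicity P₁ (span {hh + 1}) := by
      rw [hva]; exact_mod_cast ha1
    simpa using (le_emultiplicity_span_iff P₁ (hh + 1) 1).mp this
  have hnmem : hh ∉ P₁ := by
    intro h
    have : (1 : B₁) ∈ P₁ := by
      have := P₁.sub_mem hmem h
      simpa using this
    exact (inferInstance : P₁.IsPrime).ne_top ((Ideal.eq_top_iff_one _).mpr this)
  have hvh : emultiplicity P₁ (span {hh}) = 0 := (emultiplicity_span_eq_zero_iff P₁ hh).mpr hnmem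
  -- `v₁(π) = e₁`
  have hpmap : p.map (algebraMap A B₁) = span {algebraMap A B₁ π} := by
    rw [hπ, Ideal.map_span, Set.image_singleton]
  have hvπ : emultiplicity P₁ (span {algebraMap A B₁ π}) = (p.ramificationIdx' P₁ : ℕ∞) := by
    rw [← hpmap]
    exact emultiplicity_map_eq_ramificationIdx' A p P₁ hp
  have he₁ : p.ramificationIdx' P₁ = (s + 1) * a := by
    have h1 : emultiplicity P₁ (span {algebraMap A B₁ π * hh ^ s}) =
        emultiplicity P₁ (span {(hh + 1) ^ (s + 1)}) := by rw [hR1]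
    rw [emultiplicity_span_mul P₁ hP₁, emultiplicity_span_pow P₁ hP₁, emultiplicity_span_pow P₁ hP₁,
      hvh, hvπ, hva, mul_zero, add_zero] at h1
    exact_mod_cast h1
  -- the degree bound
  have hπ0 : π ≠ 0 := by
    rintro rfl
    apply hp
    rw [hπ]
    simp
  have hgx : aeval hh (gPoly π s) = 0 := by rw [aeval_gPoly, hR1, sub_self]
  have hfr := finrank_le_of_gPoly A B₁ K L π s hh hR1 hprim
  haveI : NoZeroSMulDivisors A B₁ := ⟨fun {c x} h => by
    rw [Algebra.smul_def, mul_eq_zero] at h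
    exact h.imp (fun h => (map_eq_zero_iff _ (FaithfulSMul.algebraMap_injective A B₁)).mp h) id⟩
  have hele : p.ramificationIdx' P₁ ≤ s + 1 :=
    (Ideal.ramificationIdx_le_finrank B₁ K L P₁).trans hfr
  have ha_eq : a = 1 := by
    rw [he₁] at hele
    nlinarith
  rw [ha_eq, mul_one] at he₁ hta
  refine ⟨he₁, hta.symm, ?_⟩
  -- the different exponent
  have hder : aeval hh (derivative (gPoly π s)) = algebraMap A B₁ π * hh ^ (s - 1) :=
    aeval_derivative_gPoly π s hh hchar
  have hder0 : aeval hh (derivative (gPoly π s)) ≠ 0 := by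
    rw [hder]
    refine mul_ne_zero ?_ (pow_ne_zero _ ?_)
    · rwa [Ne, map_eq_zero_iff _ (FaithfulSMul.algebraMap_injective A B₁)]
    · rintro rfl
      exact hnmem (Ideal.zero_mem _)
  have hle := diffExp_le_multiplicity_aeval_derivative' A B₁ K L hh hprim (gPoly π s) hgx hder0
    P₁ hP₁
  have hval : emultiplicity P₁ (span {aeval hh (derivative (gPoly π s))}) =
      ((s + 1 : ℕ) : ℕ∞) := by
    rw [hder, emultiplicity_span_mul P₁ hP₁, emultiplicity_span_pow P₁ hP₁, hvh, hvπ, he₁,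
      mul_zero, add_zero]
  have hne : (span {aeval hh (derivative (gPoly π s))} : Ideal B₁) ≠ ⊥ := by
    rwa [Ne, Ideal.span_singleton_eq_bot]
  have hfin2 : FiniteMultiplicity P₁ (span {aeval hh (derivative (gPoly π s))}) :=
    FiniteMultiplicity.of_prime_left hprime₁ hne
  rw [hfin2.emultiplicity_eq_multiplicity, Nat.cast_inj] at hval
  rw [hval] at hle
  exact hle

end Input

/-- the prime `P_C ∩ B₁` lies over `p` (two towers `A ⊆ B ⊆ C`, `A ⊆ B₁ ⊆ C`). -/
theorem under_liesOver_of_two_towers {A B : Type*} (B₁ : Type*) {Ct : Type*}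
    [CommRing A] [CommRing B] [CommRing B₁] [CommRing Ct]
    [Algebra A B] [Algebra B Ct] [Algebra A Ct] [IsScalarTower A B Ct]
    [Algebra A B₁] [Algebra B₁ Ct] [IsScalarTower A B₁ Ct]
    (p : Ideal A) (P_B : Ideal B) (P_C : Ideal Ct) [P_C.LiesOver P_B] [P_B.LiesOver p] :
    (P_C.under B₁).LiesOver p := by
  haveI : P_C.LiesOver p := Ideal.LiesOver.trans P_C P_B p
  constructor
  rw [Ideal.under_under]
  exact Ideal.over_def P_C p

section Main

variable (A B B₁ Ct : Type*) [CommRing A] [CommRing B] [CommRing B₁] [CommRing Ct]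
  [Algebra A B] [Algebra B Ct] [Algebra A Ct] [IsScalarTower A B Ct]
  [Algebra A B₁] [Algebra B₁ Ct] [IsScalarTower A B₁ Ct]
  [IsDedekindDomain A] [IsDedekindDomain B] [IsDedekindDomain B₁] [IsDedekindDomain Ct]
  [Module.IsTorsionFree A B] [Module.IsTorsionFree A Ct] [Module.IsTorsionFree B Ct]
  [Module.IsTorsionFree A B₁] [Module.IsTorsionFree B₁ Ct]
  [Module.Finite A B] [Module.Finite A Ct] [Module.Finite B Ct]
  [Module.Finite A B₁] [Module.Finite B₁ Ct]
  [Algebra.IsSeparable (FractionRing A) (FractionRing Ct)]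
  [Algebra.IsSeparable (FractionRing A) (FractionRing B)]
  [Algebra.IsSeparable (FractionRing B) (FractionRing Ct)]
  [Algebra.IsSeparable (FractionRing A) (FractionRing B₁)]
  [Algebra.IsSeparable (FractionRing B₁) (FractionRing Ct)]
  (K L : Type*) [Field K] [Field L] [Algebra A K] [IsFractionRing A K] [Algebra B₁ L]
  [IsFractionRing B₁ L] [Algebra K L] [Algebra A L] [IsScalarTower A K L] [IsScalarTower A B₁ L]
  [FiniteDimensional K L] [Algebra.IsSeparable K L]

variable (p : Ideal A) [p.IsMaximal] (P_B : Ideal B) [P_B.IsPrime]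
  (P_C : Ideal Ct) [P_C.IsPrime] [P_C.LiesOver P_B] [P_B.LiesOver p]

/-- **(Table'), `ℓ = 3`**: from `π hh² = (hh + 1)³`, `(hh + 1)(mm + 1) = (mm - 1)²` and
`v_{P_C}(mm - 1) = 1`. -/
theorem exists_pow_dvd_sq_of_relations_three (hp : p ≠ ⊥)
    (hres : ∀ c : Ct, ∃ a : A, c - algebraMap A Ct a ∈ P_C)
    (hchar : ∀ n : ℕ, ((n : ℕ) : A ⧸ p) = 0 ↔ 3 ∣ n) (h3 : ((3 : ℕ) : A) = 0)
    (π : A) (hπ : p = span {π}) (hh : B₁) (mm : Ct)
    (hR1 : algebraMap A B₁ π * hh ^ 2 = (hh + 1) ^ 3)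
    (hR2 : (algebraMap B₁ Ct hh + 1) * (mm + 1) = (mm - 1) ^ 2)
    (hS1 : mm - 1 ∈ P_C) (hS1' : mm - 1 ∉ P_C ^ 2)
    (hprim : Algebra.adjoin K {algebraMap B₁ L hh} = ⊤) :
    ∃ m : ℕ, P_C ^ m ∣ (P_B ^ 2).map (algebraMap B Ct) ∧ ¬ P_C ^ m ∣ differentIdeal B Ct := by
  have h3C : (3 : Ct) = 0 := by
    have := congrArg (algebraMap A Ct) h3
    rw [map_natCast, map_zero] at this
    exact_mod_cast this
  haveI : (P_C.under B₁).LiesOver p := under_liesOver_of_two_towers B₁ p P_B P_C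
  have hu : mm + 1 ∉ P_C := by
    intro h
    have h2 : (2 : Ct) ∈ P_C := by
      have := P_C.sub_mem h hS1
      have e : mm + 1 - (mm - 1) = 2 := by ring
      rwa [e] at this
    have h1 : (1 : Ct) ∈ P_C := by
      have h4 : (2 : Ct) * 2 ∈ P_C := P_C.mul_mem_left 2 h2
      have e : (2 : Ct) * 2 = 1 + 3 := by norm_num
      rwa [e, h3C, add_zero] at h4
    exact (inferInstance : P_C.IsPrime).ne_top ((Ideal.eq_top_iff_one _).mpr h1)
  obtain ⟨he₁, he₂, hD⟩ := table_input A B₁ Ct K L p (P_C.under B₁) P_C hp π hπ 2 2 (by norm_num) h3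
    hh (mm + 1) (mm - 1) hR1 hR2 hu hS1 hS1' hprim
  exact exists_pow_dvd_sq_and_not_dvd_differentIdeal A B B₁ Ct p P_B (P_C.under B₁) P_C hp hres
    hchar
    (Or.inl ⟨rfl, he₁, he₂, rfl⟩) hD

/-- **(Table'), `ℓ = 2`**: from `π hh³ = (hh + 1)⁴`, `(hh + 1)(mm² + mm + 1) = (mm + 1)³` and
`v_{P_C}(mm + 1) = 1`. -/
theorem exists_pow_dvd_sq_of_relations_two (hp : p ≠ ⊥)
    (hres : ∀ c : Ct, ∃ a : A, c - algebraMap A Ct a ∈ P_C)
    (hchar : ∀ n : ℕ, ((n : ℕ) : A ⧸ p) = 0 ↔ 2 ∣ n) (h4 : ((4 : ℕ) : A) = 0)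
    (π : A) (hπ : p = span {π}) (hh : B₁) (mm : Ct)
    (hR1 : algebraMap A B₁ π * hh ^ 3 = (hh + 1) ^ 4)
    (hR2 : (algebraMap B₁ Ct hh + 1) * (mm ^ 2 + mm + 1) = (mm + 1) ^ 3)
    (hS1 : mm + 1 ∈ P_C) (hS1' : mm + 1 ∉ P_C ^ 2)
    (hprim : Algebra.adjoin K {algebraMap B₁ L hh} = ⊤) :
    ∃ m : ℕ, P_C ^ m ∣ (P_B ^ 2).map (algebraMap B Ct) ∧ ¬ P_C ^ m ∣ differentIdeal B Ct := by
  have hu : mm ^ 2 + mm + 1 ∉ P_C := by
    intro h
    have h1 : (1 : Ct) ∈ P_C := by
      have := P_C.sub_mem h (P_C.mul_mem_left mm hS1)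
      have e : mm ^ 2 + mm + 1 - mm * (mm + 1) = 1 := by ring
      rwa [e] at this
    exact (inferInstance : P_C.IsPrime).ne_top ((Ideal.eq_top_iff_one _).mpr h1)
  haveI : (P_C.under B₁).LiesOver p := under_liesOver_of_two_towers B₁ p P_B P_C
  obtain ⟨he₁, he₂, hD⟩ := table_input A B₁ Ct K L p (P_C.under B₁) P_C hp π hπ 3 3 (by norm_num) h4
    hh (mm ^ 2 + mm + 1) (mm + 1) hR1 hR2 hu hS1 hS1' hprim
  exact exists_pow_dvd_sq_and_not_dvd_differentIdeal A B B₁ Ct p P_B (P_C.under B₁) P_C hp hres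
    hchar
    (Or.inr ⟨rfl, he₁, he₂, rfl⟩) hD

end Main

end Fermat.Agent.S18lib.RH
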