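/-
S18lib / RH / Numerics (helper3): the pure arithmetic behind `c_Q ≤ 0` at a place `Q` over
`j̄ = 0` in characteristic 3 and 2.

Notation: `e = e_Q = ord_Q j̄`, `d = d_Q` (exponent of the different), `n0` = number of places
`P → Q` with `j(P) = 0` (each `e_P ∈ {1, 3}`, `∑ e_P = e`), `n1` = number of places `P → Q` with
`j(P) = 1728` (each `e_P ∈ {1, 2}`, `∑ e_P = e`).  The quantity to bound is
`∑_{P → Q} (e_P - 1) = (e - n0) + (e - n1)`.
-/
import Mathlib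

set_option autoImplicit false

namespace Fermat.Agent.S18lib.RH

/-- divisors of `6` -/
theorem eq_of_dvd_six {e : ℕ} (he : e ∣ 6) : e = 1 ∨ e = 2 ∨ e = 3 ∨ e = 6 := by
  have h6 : e ≤ 6 := Nat.le_of_dvd (by norm_num) he
  interval_cases e <;> simp_all

/-- divisors of `12` -/
theorem eq_of_dvd_twelve {e : ℕ} (he : e ∣ 12) :
    e = 1 ∨ e = 2 ∨ e = 3 ∨ e = 4 ∨ e = 6 ∨ e = 12 := by
  have h12 : e ≤ 12 := Nat.le_of_dvd (by norm_num) he
  interval_cases e <;> simp_all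

/-- **characteristic 3**: `e ∣ 6`, the generic bounds `d ≥ e - 1`, `d ≥ e` if `3 ∣ e`, and the
auxiliary-level bound `d ≥ 7` if `e = 6` imply `∑ (e_P - 1) ≤ d`. -/
theorem need_le_three {e d n0 n1 : ℕ} (he : e ∣ 6)
    (hd1 : e - 1 ≤ d) (hd3 : 3 ∣ e → e ≤ d) (hd6 : e = 6 → 7 ≤ d)
    (h0a : e ≤ 3 * n0) (h0c : (e + n0) % 2 = 0) (h1a : e ≤ 2 * n1) :
    (e - n0) + (e - n1) ≤ d := by
  rcases eq_of_dvd_six he with rfl | rfl | rfl | rfl
  · omega
  · omega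
  · have := hd3 (by norm_num); omega
  · have := hd6 rfl; omega

/-- **characteristic 2**: `e ∣ 12`, the generic bounds, the auxiliary-level bound `d ≥ 14` if
`e = 12`, and the fixed-point input (`x1` = number of `P → Q` over `1728` with `e_P = 1`,
`x2` = number with `e_P = 2`; `x1 ≥ 3` if `e = 3`, `x1 ≥ 2` if `e = 6`) imply
`∑ (e_P - 1) ≤ d`. -/
theorem need_le_two {e d n0 x1 x2 : ℕ} (he : e ∣ 12)
    (hd1 : e - 1 ≤ d) (hd2 : 2 ∣ e → e ≤ d) (hd12 : e = 12 → 14 ≤ d)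
    (h0a : e ≤ 3 * n0) (h0c : (e + n0) % 2 = 0) (h1 : x1 + 2 * x2 = e)
    (hx3 : e = 3 → 3 ≤ x1) (hx6 : e = 6 → 2 ≤ x1) :
    (e - n0) + (e - (x1 + x2)) ≤ d := by
  rcases eq_of_dvd_twelve he with rfl | rfl | rfl | rfl | rfl | rfl
  · omega
  · have := hd2 (by norm_num); omega
  · have := hx3 rfl; omega
  · have := hd2 (by norm_num); omega
  · have := hd2 (by norm_num); have := hx6 rfl; omega
  · have := hd12 rfl; omega

/-- **characteristic 2, `3 ∣ N`** (tower through the level-3 Hauptmodul on the `k`-side):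
`e = 4 e'`, `d ≥ (e' - 1) + 4 e'`, and `d ≥ 5 e'` if `e'` is even. -/
theorem need_le_two_tower {e e' d n0 n1 : ℕ} (he : e = 4 * e') (he' : 0 < e')
    (hd : e' - 1 + 4 * e' ≤ d) (hd2 : 2 ∣ e' → 5 * e' ≤ d)
    (h0a : e ≤ 3 * n0) (h1a : e ≤ 2 * n1) :
    (e - n0) + (e - n1) ≤ d := by
  subst he
  rcases Nat.lt_or_ge e' 3 with h | h
  · interval_cases e'
    · omega
    · have := hd2 (by norm_num); omega
  · omega

/-- **characteristic 3, `2 ∣ N`** (tower through the level-2 Hauptmodul on the `k`-side):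
`e = 3 e'`, `d ≥ (e' - 1) + 3 e'`. -/
theorem need_le_three_tower {e e' d n0 n1 : ℕ} (he : e = 3 * e') (he' : 0 < e')
    (hd : e' - 1 + 3 * e' ≤ d)
    (h0a : e ≤ 3 * n0) (h1a : e ≤ 2 * n1) :
    (e - n0) + (e - n1) ≤ d := by
  subst he
  omega

end Fermat.Agent.S18lib.RH
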