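/-
S18lib / RH / TableMain (helper3): (Table') over `A = k[X]` at `X = 0`, in the exact shape of the
hypothesis `hTable` of `Norm.exists_smul_lifts` (helper8):

  `∀ Q : Ideal B, Q.IsPrime → algebraMap k[X] B (X - C 0) ∈ Q →
     ∃ (Q'' : Ideal Ct) (m : ℕ), Q'' ^ m ∣ (Q ^ 2).map (algebraMap B Ct) ∧
       ¬ Q'' ^ m ∣ differentIdeal B Ct`

from the modular relations (`ℓ = 3`: `X hh² = (hh + 1)³` in `B₁`, `(hh + 1)(mm + 1) = (mm - 1)²`
in `Ct`; `ℓ = 2`: `X hh³ = (hh + 1)⁴`, `(hh + 1)(mm² + mm + 1) = (mm + 1)³`) and the simple-zero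
property (S1) of `mm - 1` (resp. `mm + 1`), in ideal form or in `Place` form.
-/
import Mathlib
import Fermat.Agent.S18lib.RH.TableInput
import Fermat.Agent.ProgramR.FunctionField.PlaceDedekind

set_option autoImplicit false
set_option linter.deprecated false
set_option linter.unusedSectionVars false
set_option linter.style.haveILetI false

namespace Fermat.Agent.S18lib.RH

open Module nonZeroDivisors Ideal Polynomial IntermediateField

attribute [local instance] FractionRing.liftAlgebra FractionRing.isScalarTower_liftAlgebra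
  Ideal.Quotient.field

section PolyBase

variable {k : Type*} [Field k]

theorem span_X_isMaximal : (span {(X : k[X])}).IsMaximal :=
  PrincipalIdealRing.isMaximal_of_irreducible irreducible_X

theorem span_X_ne_bot : span {(X : k[X])} ≠ ⊥ := by
  rw [Ne, Ideal.span_singleton_eq_bot]
  exact X_ne_zero

/-- residue characteristic of `k[X] / (X)`. -/
theorem natCast_quotient_span_X_eq_zero_iff (ℓ : ℕ) [CharP k ℓ] (n : ℕ) :
    ((n : ℕ) : k[X] ⧸ span {(X : k[X])}) = 0 ↔ ℓ ∣ n := by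
  haveI := span_X_isMaximal (k := k)
  have hinj : Function.Injective
      ((algebraMap k[X] (k[X] ⧸ span {(X : k[X])})).comp (algebraMap k k[X])) :=
    RingHom.injective _
  haveI : CharP (k[X] ⧸ span {(X : k[X])}) ℓ :=
    (RingHom.charP_iff _ hinj ℓ).mp inferInstance
  exact CharP.cast_eq_zero_iff _ ℓ n

variable {B : Type*} [CommRing B] [Algebra k[X] B]

/-- a prime containing `X` lies over `(X)`. -/
theorem liesOver_span_X (Q : Ideal B) [Q.IsPrime] (hX : algebraMap k[X] B X ∈ Q) :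
    Q.LiesOver (span {(X : k[X])}) := by
  constructor
  have hle : span {(X : k[X])} ≤ Q.under k[X] := by
    rw [Ideal.span_singleton_le_iff_mem]
    exact hX
  exact (span_X_isMaximal (k := k)).eq_of_le (Ideal.IsPrime.ne_top inferInstance) hle

/-- trivial residue field extension, from `k`-rationality of the maximal ideals. -/
theorem exists_sub_mem_of_surjective [Algebra k B] [IsScalarTower k k[X] B] (Q : Ideal B)
    (hres : Function.Surjective (algebraMap k (B ⧸ Q))) (b : B) :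
    ∃ a : k[X], b - algebraMap k[X] B a ∈ Q := by
  obtain ⟨a, ha⟩ := hres (Ideal.Quotient.mk Q b)
  refine ⟨Polynomial.C a, ?_⟩
  rw [← Ideal.Quotient.eq, ← ha, ← Polynomial.algebraMap_eq,
    ← IsScalarTower.algebraMap_apply k k[X] B, IsScalarTower.algebraMap_apply k B (B ⧸ Q)]
  rfl

end PolyBase

section HTable

variable {k : Type*} [Field k] (B B₁ Ct : Type*) [CommRing B] [CommRing B₁] [CommRing Ct]
  [Algebra k[X] B] [Algebra B Ct] [Algebra k[X] Ct] [IsScalarTower k[X] B Ct]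
  [Algebra k[X] B₁] [Algebra B₁ Ct] [IsScalarTower k[X] B₁ Ct]
  [IsDedekindDomain B] [IsDedekindDomain B₁] [IsDedekindDomain Ct]
  [Module.IsTorsionFree k[X] B] [Module.IsTorsionFree k[X] Ct] [Module.IsTorsionFree B Ct]
  [Module.IsTorsionFree k[X] B₁] [Module.IsTorsionFree B₁ Ct]
  [Module.Finite k[X] B] [Module.Finite k[X] Ct] [Module.Finite B Ct]
  [Module.Finite k[X] B₁] [Module.Finite B₁ Ct]
  [Algebra.IsSeparable (FractionRing k[X]) (FractionRing Ct)]
  [Algebra.IsSeparable (FractionRing k[X]) (FractionRing B)]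
  [Algebra.IsSeparable (FractionRing B) (FractionRing Ct)]
  [Algebra.IsSeparable (FractionRing k[X]) (FractionRing B₁)]
  [Algebra.IsSeparable (FractionRing B₁) (FractionRing Ct)]
  (K L : Type*) [Field K] [Field L] [Algebra k[X] K] [IsFractionRing k[X] K] [Algebra B₁ L]
  [IsFractionRing B₁ L] [Algebra K L] [Algebra k[X] L] [IsScalarTower k[X] K L]
  [IsScalarTower k[X] B₁ L] [FiniteDimensional K L] [Algebra.IsSeparable K L]
  [Algebra k Ct] [IsScalarTower k k[X] Ct]

/-- **(Table') at `X = 0`, `ℓ = 3`**, shape of `Norm.exists_smul_lifts`. -/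
theorem hTable_three [CharP k 3]
    (hres : ∀ Q : Ideal Ct, Q.IsMaximal → Function.Surjective (algebraMap k (Ct ⧸ Q)))
    (hh : B₁) (mm : Ct)
    (hR1 : algebraMap k[X] B₁ X * hh ^ 2 = (hh + 1) ^ 3)
    (hR2 : (algebraMap B₁ Ct hh + 1) * (mm + 1) = (mm - 1) ^ 2)
    (hS1 : ∀ P : Ideal Ct, P.IsPrime → mm - 1 ∈ P → mm - 1 ∉ P ^ 2)
    (hprim : Algebra.adjoin K {algebraMap B₁ L hh} = ⊤) :
    ∀ Q : Ideal B, Q.IsPrime → algebraMap k[X] B (X - Polynomial.C 0) ∈ Q →
      ∃ (Q'' : Ideal Ct) (m : ℕ), Q'' ^ m ∣ (Q ^ 2).map (algebraMap B Ct) ∧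
        ¬ Q'' ^ m ∣ differentIdeal B Ct := by
  intro Q hQ hXQ
  rw [map_zero, sub_zero] at hXQ
  haveI := hQ
  haveI := span_X_isMaximal (k := k)
  haveI : Q.LiesOver (span {(X : k[X])}) := liesOver_span_X Q hXQ
  have hQ0 : Q ≠ ⊥ := Ideal.ne_bot_of_liesOver_of_ne_bot (span_X_ne_bot (k := k)) Q
  -- a prime of `Ct` over `Q`
  obtain ⟨Q'', hQ''prime, hQ''over⟩ :=
    Ideal.exists_ideal_over_prime_of_isIntegral_of_isDomain (S := Ct) Q (by
      rw [(RingHom.injective_iff_ker_eq_bot _).mp (FaithfulSMul.algebraMap_injective B Ct)]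
      exact bot_le)
  haveI := hQ''prime
  haveI : Q''.LiesOver Q := ⟨hQ''over.symm⟩
  have hQ''0 : Q'' ≠ ⊥ := Ideal.ne_bot_of_liesOver_of_ne_bot hQ0 Q''
  have hQ''max : Q''.IsMaximal := Ideal.IsPrime.isMaximal inferInstance hQ''0
  -- `X ∈ Q''`, hence `hh + 1 ∈ Q''`, hence `mm - 1 ∈ Q''`
  have hX'' : algebraMap k[X] Ct X ∈ Q'' := by
    rw [IsScalarTower.algebraMap_apply k[X] B Ct]
    have : algebraMap k[X] B X ∈ Q''.comap (algebraMap B Ct) := by rw [hQ''over]; exact hXQ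
    exact this
  have hh1 : algebraMap B₁ Ct hh + 1 ∈ Q'' := by
    have h := congrArg (algebraMap B₁ Ct) hR1
    rw [map_mul, map_pow, map_pow, map_add, map_one,
      ← IsScalarTower.algebraMap_apply k[X] B₁ Ct] at h
    have : (algebraMap B₁ Ct hh + 1) ^ 3 ∈ Q'' := by
      rw [← h]
      exact Q''.mul_mem_right _ hX''
    exact hQ''prime.mem_of_pow_mem 3 this
  have hmm : mm - 1 ∈ Q'' := by
    have : (mm - 1) ^ 2 ∈ Q'' := by
      rw [← hR2]
      exact Q''.mul_mem_right _ hh1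
    exact hQ''prime.mem_of_pow_mem 2 this
  have h3 : ((3 : ℕ) : k[X]) = 0 := by
    have : ((3 : ℕ) : k) = 0 := CharP.cast_eq_zero k 3
    rw [← map_natCast (Polynomial.C : k →+* k[X]), this, map_zero]
  refine ⟨Q'', ?_⟩
  exact exists_pow_dvd_sq_of_relations_three k[X] B B₁ Ct K L (span {(X : k[X])}) Q Q''
    (span_X_ne_bot (k := k)) (exists_sub_mem_of_surjective Q'' (hres Q'' hQ''max))
    (natCast_quotient_span_X_eq_zero_iff 3) h3 X rfl hh mm hR1 hR2 hmm
    (hS1 Q'' hQ''prime hmm) hprim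

/-- **(Table') at `X = 0`, `ℓ = 2`**, shape of `Norm.exists_smul_lifts`. -/
theorem hTable_two [CharP k 2]
    (hres : ∀ Q : Ideal Ct, Q.IsMaximal → Function.Surjective (algebraMap k (Ct ⧸ Q)))
    (hh : B₁) (mm : Ct)
    (hR1 : algebraMap k[X] B₁ X * hh ^ 3 = (hh + 1) ^ 4)
    (hR2 : (algebraMap B₁ Ct hh + 1) * (mm ^ 2 + mm + 1) = (mm + 1) ^ 3)
    (hS1 : ∀ P : Ideal Ct, P.IsPrime → mm + 1 ∈ P → mm + 1 ∉ P ^ 2)
    (hprim : Algebra.adjoin K {algebraMap B₁ L hh} = ⊤) :
    ∀ Q : Ideal B, Q.IsPrime → algebraMap k[X] B (X - Polynomial.C 0) ∈ Q →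
      ∃ (Q'' : Ideal Ct) (m : ℕ), Q'' ^ m ∣ (Q ^ 2).map (algebraMap B Ct) ∧
        ¬ Q'' ^ m ∣ differentIdeal B Ct := by
  intro Q hQ hXQ
  rw [map_zero, sub_zero] at hXQ
  haveI := hQ
  haveI := span_X_isMaximal (k := k)
  haveI : Q.LiesOver (span {(X : k[X])}) := liesOver_span_X Q hXQ
  have hQ0 : Q ≠ ⊥ := Ideal.ne_bot_of_liesOver_of_ne_bot (span_X_ne_bot (k := k)) Q
  obtain ⟨Q'', hQ''prime, hQ''over⟩ :=
    Ideal.exists_ideal_over_prime_of_isIntegral_of_isDomain (S := Ct) Q (by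
      rw [(RingHom.injective_iff_ker_eq_bot _).mp (FaithfulSMul.algebraMap_injective B Ct)]
      exact bot_le)
  haveI := hQ''prime
  haveI : Q''.LiesOver Q := ⟨hQ''over.symm⟩
  have hQ''0 : Q'' ≠ ⊥ := Ideal.ne_bot_of_liesOver_of_ne_bot hQ0 Q''
  have hQ''max : Q''.IsMaximal := Ideal.IsPrime.isMaximal inferInstance hQ''0
  have hX'' : algebraMap k[X] Ct X ∈ Q'' := by
    rw [IsScalarTower.algebraMap_apply k[X] B Ct]
    have : algebraMap k[X] B X ∈ Q''.comap (algebraMap B Ct) := by rw [hQ''over]; exact hXQ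
    exact this
  have hh1 : algebraMap B₁ Ct hh + 1 ∈ Q'' := by
    have h := congrArg (algebraMap B₁ Ct) hR1
    rw [map_mul, map_pow, map_pow, map_add, map_one,
      ← IsScalarTower.algebraMap_apply k[X] B₁ Ct] at h
    have : (algebraMap B₁ Ct hh + 1) ^ 4 ∈ Q'' := by
      rw [← h]
      exact Q''.mul_mem_right _ hX''
    exact hQ''prime.mem_of_pow_mem 4 this
  have hmm : mm + 1 ∈ Q'' := by
    have : (mm + 1) ^ 3 ∈ Q'' := by
      rw [← hR2]
      exact Q''.mul_mem_right _ hh1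
    exact hQ''prime.mem_of_pow_mem 3 this
  have h4 : ((4 : ℕ) : k[X]) = 0 := by
    have h2 : ((2 : ℕ) : k) = 0 := CharP.cast_eq_zero k 2
    have : ((4 : ℕ) : k) = 0 := by
      have e : ((4 : ℕ) : k) = ((2 : ℕ) : k) * ((2 : ℕ) : k) := by norm_num
      rw [e, h2, zero_mul]
    rw [← map_natCast (Polynomial.C : k →+* k[X]), this, map_zero]
  refine ⟨Q'', ?_⟩
  exact exists_pow_dvd_sq_of_relations_two k[X] B B₁ Ct K L (span {(X : k[X])}) Q Q''
    (span_X_ne_bot (k := k)) (exists_sub_mem_of_surjective Q'' (hres Q'' hQ''max))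
    (natCast_quotient_span_X_eq_zero_iff 2) h4 X rfl hh mm hR1 hR2 hmm
    (hS1 Q'' hQ''prime hmm) hprim

end HTable

section PlaceForm

open AlgebraicCurve IsDedekindDomain Fermat.Agent.ProgramR

variable {K F : Type*} [Field K] [Field F] [Algebra K F]
  {R : Type*} [CommRing R] [IsDedekindDomain R] [Algebra R F] [IsFractionRing R F]
  [Algebra K R] [IsScalarTower K R F]

/-- (S1), from the `Place` form to the ideal form. -/
theorem not_mem_sq_of_ord_eq_one (r : R) (hr0 : r ≠ 0)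
    (h : ∀ v : Place K F, 0 < v.ord (algebraMap R F r) → v.ord (algebraMap R F r) = 1)
    (P : Ideal R) (hP : P.IsPrime) (hr : r ∈ P) : r ∉ P ^ 2 := by
  classical
  intro hr2
  have hP0 : P ≠ ⊥ := by
    rintro rfl
    exact hr0 (by simpa using hr)
  set P' : HeightOneSpectrum R := ⟨P, hP, hP0⟩ with hP'
  have hpos : 0 < (Place.ofHeightOneSpectrum (K := K) (F := F) P').ord (algebraMap R F r) :=
    (FF.ord_algebraMap_pos_iff (K := K) (F := F) P' r hr0).mpr hr
  have hone := h _ hpos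
  rw [FF.ord_algebraMap_eq_count (K := K) (F := F) P' hr0] at hone
  have hsr : (Ideal.span {r} : Ideal R) ≠ ⊥ := by
    rwa [Ne, Ideal.span_singleton_eq_bot]
  have hirr : Irreducible P := (Ideal.prime_of_isPrime hP0 hP).irreducible
  have h2 : ((2 : ℕ) : ℕ∞) ≤ emultiplicity P (Ideal.span {r}) := by
    rw [← pow_dvd_iff_le_emultiplicity, Ideal.dvd_iff_le, Ideal.span_singleton_le_iff_mem]
    exact hr2
  rw [UniqueFactorizationMonoid.emultiplicity_eq_count_normalizedFactors hirr hsr, normalize_eq,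
    Nat.cast_le] at h2
  have : (Multiset.count P (UniqueFactorizationMonoid.normalizedFactors
      (Ideal.span {r} : Ideal R)) : ℤ) = 1 := hone
  have h3 : Multiset.count P (UniqueFactorizationMonoid.normalizedFactors
      (Ideal.span {r} : Ideal R)) = 1 := by exact_mod_cast this
  omega

end PlaceForm

end Fermat.Agent.S18lib.RH
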